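import Mathlib
import Fermat.Prelude.Def_ExtCitation_AdmissibleExtension_v2

/-!
# S14, shared block [T]: the number-field statement that S14 is reduced to

`KummerVanishing p` is the purely number-theoretic statement about `K = ℚ(ζ_p)` which the
translation block [T] (`Fermat.Agent.S14Tr`) shows to imply the frozen `ExtCitation.ExtVanishingCts p`:
a nonzero integer `α` of `K` which
* generates the `p`-th power of an ideal,
* lies in the `ω²`-eigenspace of `Kˣ / Kˣᵖ` (`σ α = α ^ (n ^ 2) * y ^ p` when `σ ζ = ζ ^ n`),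
* is locally a `p`-th power at the prime `(ζ - 1)` (every integral element of the class of `α` in
  `Kˣ / Kˣᵖ` is a `p`-th power modulo every power of `(ζ - 1)`),
is a `p`-th power in `K`.
-/

set_option autoImplicit false

open NumberField

namespace Fermat.Agent.S14Tr

/-- The number-field statement to which block [T] reduces `ExtCitation.ExtVanishingCts p`. -/
def KummerVanishing (p : ℕ) : Prop :=
  ∀ (K : Type) [Field K] [NumberField K] [IsCyclotomicExtension {p} ℚ K]
    (ζ : 𝓞 K), IsPrimitiveRoot ζ p → ∀ α : 𝓞 K, α ≠ 0 →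
    (∃ 𝔞 : Ideal (𝓞 K), Ideal.span {α} = 𝔞 ^ p) →
    (∀ (σ : K ≃ₐ[ℚ] K) (n : ℕ), σ (ζ : K) = (ζ : K) ^ n →
      ∃ y : K, σ (α : K) = (α : K) ^ (n ^ 2) * y ^ p) →
    (∀ x : 𝓞 K, (∃ y : K, y ≠ 0 ∧ (x : K) = (α : K) * y ^ p) →
      ∀ m : ℕ, ∃ c : 𝓞 K, x - c ^ p ∈ Ideal.span {ζ - 1} ^ m) →
    ∃ β : K, (α : K) = β ^ p

end Fermat.Agent.S14Tr
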