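import Mathlib
import Fermat.Prelude.Def_ExtCitation_AdmissibleExtension_v2
import Fermat.Prelude.Def_ExtCitation_KummerBridge

/-!
# S14, block [T], part (T-a): the cocycle of a non-split admissible extension

Owner: helper64.  From a non-split `IsAdmissibleExtensionCts p V C` (`p ≥ 3`) we extract the
function `b` on the absolute Galois group of the rationals with
`σ • v = χ(σ) • v + b(σ) • c` (`c` a generator of `C`, `v ∉ C`, `χ` the mod-`p` cyclotomic
character) and record its group-theoretic properties: cocycle identity, the kernel of the action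
is `{χ = 1 ∧ b = 0}` (an open set), `b` is not zero on `ker χ`, inertia away from `p` lies in
the kernel, and the decomposition groups over `p` meet `ker χ` inside the kernel.
-/

set_option autoImplicit false

namespace Fermat.Agent.S14Tr.Cocycle

open ExtCitation

/-- The absolute Galois group of the rationals (as used by the frozen definitions). -/
abbrev GQ : Type := AlgebraicClosure ℚ ≃ₐ[ℚ] AlgebraicClosure ℚ

/-- The mod-`p` cyclotomic character with values in `ZMod p`. -/
noncomputable def chi (p : ℕ) [Fact p.Prime] (σ : GQ) : ZMod p :=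
  ((cycloChar p σ : (ZMod p)ˣ) : ZMod p)

section chi

variable {p : ℕ} [Fact p.Prime]

theorem chi_mul (σ τ : GQ) : chi p (σ * τ) = chi p σ * chi p τ := by
  simp [chi, map_mul]

theorem chi_one : chi p (1 : GQ) = 1 := by
  simp [chi]

theorem chi_ne_zero (σ : GQ) : chi p σ ≠ 0 :=
  Units.ne_zero _

theorem chi_eq_one_iff (σ : GQ) : chi p σ = 1 ↔ cycloChar p σ = 1 := by
  simp [chi]

theorem chi_eq_cycloExp (σ : GQ) : chi p σ = (cycloExp p σ : ZMod p) :=
  coe_cycloChar p σ

theorem chi_inv_mul (σ : GQ) : chi p σ⁻¹ * chi p σ = 1 := by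
  rw [← chi_mul, inv_mul_cancel, chi_one]

theorem chi_conj (g h : GQ) : chi p (g * h * g⁻¹) = chi p h := by
  rw [chi_mul, chi_mul, mul_comm (chi p g), mul_assoc, ← chi_mul, mul_inv_cancel, chi_one, mul_one]

/-- For `p ≥ 3` the mod-`p` cyclotomic character is not trivial. -/
theorem exists_chi_ne_one (h3 : 3 ≤ p) : ∃ g : GQ, chi p g ≠ 1 := by
  have : NeZero p := ⟨(Fact.out : p.Prime).ne_zero⟩
  have : NeZero (p : AlgebraicClosure ℚ) := ⟨Nat.cast_ne_zero.mpr (NeZero.ne p)⟩
  obtain ⟨ζ, hζ⟩ := HasEnoughRootsOfUnity.exists_primitiveRoot (AlgebraicClosure ℚ) p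
  by_contra hcon
  push Not at hcon
  have hfix : ∀ g : GQ, g ζ = ζ := by
    intro g
    have h1 := modularCyclotomicCharacter.spec (AlgebraicClosure ℚ) (card_rootsOfUnity_eq_self p)
      (g : AlgebraicClosure ℚ ≃+* AlgebraicClosure ℚ) (SetLike.coe_mem hζ.toRootsOfUnity)
    have h2 : ((modularCyclotomicCharacter (AlgebraicClosure ℚ) (card_rootsOfUnity_eq_self p)
        (g : AlgebraicClosure ℚ ≃+* AlgebraicClosure ℚ) : (ZMod p)ˣ) : ZMod p) = 1 := hcon g
    rw [h2] at h1
    have : Fact (1 < p) := ⟨(Fact.out : p.Prime).one_lt⟩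
    rw [ZMod.val_one, pow_one] at h1
    simpa using h1
  have hgal : IsGalois ℚ (AlgebraicClosure ℚ) := by
    have h : (DivisionRing.toRatAlgebra : Algebra ℚ (AlgebraicClosure ℚ))
        = AlgebraicClosure.instAlgebra ℚ := Subsingleton.elim _ _
    have : IsAlgClosure ℚ (AlgebraicClosure ℚ) := by
      rw [h]; infer_instance
    infer_instance
  obtain ⟨q, hq⟩ := (InfiniteGalois.mem_range_algebraMap_iff_fixed (k := ℚ) ζ).mpr hfix
  have hqp : IsPrimitiveRoot q p := by
    rw [← hq] at hζ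
    exact hζ.of_map_of_injective (algebraMap ℚ (AlgebraicClosure ℚ)).injective
  have hodd : Odd p := (Fact.out : p.Prime).odd_of_ne_two (by omega)
  have hq1 : q = 1 := by
    have h1 : q ^ p = 1 ^ p := by rw [hqp.pow_eq_one, one_pow]
    exact hodd.strictMono_pow.injective h1
  rw [hq1] at hqp
  have := hqp.unique IsPrimitiveRoot.one
  omega

end chi

section Data

variable {p : ℕ} [Fact p.Prime]
variable {V : Type} [AddCommGroup V] [Module (ZMod p) V] [DistribMulAction GQ V]
  [SMulCommClass GQ (ZMod p) V]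

/-- The data of a generator `c` of the line `C`, a vector `v ∉ C`, and the function `b`
with `σ • v = χ(σ) • v + b(σ) • c`. -/
structure IsCocycleData (C : Submodule (ZMod p) V) (c v : V) (b : GQ → ZMod p) : Prop where
  c_mem : c ∈ C
  c_ne : c ≠ 0
  v_not_mem : v ∉ C
  fix_c : ∀ σ : GQ, σ • c = c
  act_v : ∀ σ : GQ, σ • v = chi p σ • v + b σ • c
  span : ∀ x : V, ∃ a d : ZMod p, x = a • v + d • c
  gen : ∀ x ∈ C, ∃ d : ZMod p, x = d • c

namespace IsCocycleData

variable {C : Submodule (ZMod p) V} {c v : V} {b : GQ → ZMod p}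

omit [SMulCommClass GQ (ZMod p) V] in
theorem smul_c_eq_zero (h : IsCocycleData C c v b) {a : ZMod p} (ha : a • c = 0) : a = 0 := by
  by_contra hne
  exact h.c_ne ((smul_eq_zero.mp ha).resolve_left hne)

omit [SMulCommClass GQ (ZMod p) V] in
theorem smul_v_mem (h : IsCocycleData C c v b) {a : ZMod p} (ha : a • v ∈ C) : a = 0 := by
  by_contra hne
  apply h.v_not_mem
  have := C.smul_mem a⁻¹ ha
  rwa [smul_smul, inv_mul_cancel₀ hne, one_smul] at this

/-- Uniqueness of coordinates. -/
theorem coord_unique (h : IsCocycleData C c v b) {a d a' d' : ZMod p}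
    (he : a • v + d • c = a' • v + d' • c) : a = a' ∧ d = d' := by
  have h1 : (a - a') • v = (d' - d) • c := by
    rw [sub_smul, sub_smul, sub_eq_sub_iff_add_eq_add]
    rw [add_comm (d' • c)] at *
    exact he
  have h2 : a - a' = 0 := h.smul_v_mem (h1 ▸ C.smul_mem _ h.c_mem)
  have h3 : (d' - d) • c = 0 := by rw [← h1, h2, zero_smul]
  have h4 := h.smul_c_eq_zero h3
  exact ⟨sub_eq_zero.mp h2, (sub_eq_zero.mp h4).symm⟩

/-- The cocycle identity. -/
theorem cocycle (h : IsCocycleData C c v b) (σ τ : GQ) :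
    b (σ * τ) = chi p τ * b σ + b τ := by
  have h1 : (σ * τ) • v = chi p (σ * τ) • v + b (σ * τ) • c := h.act_v _
  have h2 : (σ * τ) • v = (chi p σ * chi p τ) • v + (chi p τ * b σ + b τ) • c := by
    rw [mul_smul, h.act_v τ, smul_add, smul_comm σ (chi p τ) v, smul_comm σ (b τ) c, h.fix_c,
      h.act_v σ, smul_add, smul_smul, smul_smul, add_smul, mul_comm (chi p τ) (chi p σ), add_assoc]
  rw [h1, chi_mul] at h2
  exact (h.coord_unique h2).2

theorem b_one (h : IsCocycleData C c v b) : b 1 = 0 := by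
  have := h.cocycle 1 1
  rw [mul_one, chi_one, one_mul] at this
  exact left_eq_add.mp this |> fun h => h

theorem b_mul_of_chi_eq_one (h : IsCocycleData C c v b) (σ : GQ) {τ : GQ} (hτ : chi p τ = 1) :
    b (σ * τ) = b σ + b τ := by
  rw [h.cocycle, hτ, one_mul]

/-- Conjugation formula: `b (g h g⁻¹) = χ(g)⁻¹ b(h)` for `h ∈ ker χ`, in the division-free form
`χ(g) * b (g h g⁻¹) = b h`. -/
theorem chi_mul_b_conj (h : IsCocycleData C c v b) (g : GQ) {k : GQ} (hk : chi p k = 1) :
    chi p g * b (g * k * g⁻¹) = b k := by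
  have h1 : b (g * k * g⁻¹ * g) = chi p g * b (g * k * g⁻¹) + b g := h.cocycle _ _
  have h2 : g * k * g⁻¹ * g = g * k := by group
  rw [h2, h.cocycle, hk, one_mul] at h1
  linear_combination -h1

theorem b_conj (h : IsCocycleData C c v b) (g : GQ) {k : GQ} (hk : chi p k = 1) :
    b (g * k * g⁻¹) = (chi p g)⁻¹ * b k := by
  rw [← h.chi_mul_b_conj g hk, ← mul_assoc, inv_mul_cancel₀ (chi_ne_zero g), one_mul]

/-- The kernel of the action is `{χ = 1 ∧ b = 0}`. -/
theorem forall_smul_eq_iff (h : IsCocycleData C c v b) (σ : GQ) :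
    (∀ x : V, σ • x = x) ↔ chi p σ = 1 ∧ b σ = 0 := by
  constructor
  · intro hx
    have h1 : chi p σ • v + b σ • c = (1 : ZMod p) • v + (0 : ZMod p) • c := by
      rw [← h.act_v, hx, one_smul, zero_smul, add_zero]
    exact h.coord_unique h1
  · rintro ⟨h1, h2⟩ x
    obtain ⟨a, d, rfl⟩ := h.span x
    rw [smul_add, smul_comm σ a v, smul_comm σ d c, h.fix_c, h.act_v, h1, h2, one_smul, zero_smul,
      add_zero]

/-- If `b` vanishes on `ker χ` (and `χ ≠ 1`), the extension splits globally. -/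
theorem splitsGlobally_of_forall (h : IsCocycleData C c v b) {g : GQ} (hg : chi p g ≠ 1)
    (hb : ∀ σ : GQ, chi p σ = 1 → b σ = 0) : SplitsGlobally C := by
  have hg1 : chi p g - 1 ≠ 0 := sub_ne_zero.mpr hg
  set t : ZMod p := b g / (chi p g - 1) with ht
  -- the modified cocycle
  set b' : GQ → ZMod p := fun σ => b σ + t * (1 - chi p σ) with hb'
  have hcoc : ∀ σ τ : GQ, b' (σ * τ) = chi p τ * b' σ + b' τ := by
    intro σ τ
    simp only [hb', h.cocycle, chi_mul]
    ring
  have hb'g : b' g = 0 := by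
    simp only [hb', ht]
    field_simp
    ring
  have hb'K : ∀ σ : GQ, chi p σ = 1 → b' σ = 0 := by
    intro σ hσ
    simp only [hb', hσ, hb σ hσ]
    ring
  have hb'0 : ∀ σ : GQ, b' σ = 0 := by
    intro σ
    have hk : chi p (σ * g * σ⁻¹ * g⁻¹) = 1 := by
      rw [chi_mul, chi_conj, ← chi_mul, mul_inv_cancel, chi_one]
    have e1 : σ * g = (σ * g * σ⁻¹ * g⁻¹) * (g * σ) := by group
    have h1 : b' (σ * g) = chi p g * b' σ := by rw [hcoc, hb'g, add_zero]
    have h2 : b' (σ * g) = b' σ := by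
      rw [e1, hcoc, hb'K _ hk, mul_zero, zero_add, hcoc, hb'g, mul_zero, zero_add]
    have h3 : (chi p g - 1) * b' σ = 0 := by rw [sub_mul, one_mul, ← h1, h2, sub_self]
    exact (mul_eq_zero.mp h3).resolve_left hg1
  -- the invariant complement
  set v' : V := v + t • c with hv'
  have hact : ∀ σ : GQ, σ • v' = chi p σ • v' := by
    intro σ
    have h0 := hb'0 σ
    simp only [hb'] at h0
    have h1 : b σ = - (t * (1 - chi p σ)) := eq_neg_of_add_eq_zero_left h0
    rw [hv', smul_add, smul_comm σ t c, h.fix_c, h.act_v, h1, smul_add, smul_smul, add_assoc,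
      ← add_smul]
    congr 2
    ring
  refine ⟨Submodule.span (ZMod p) {v'}, ?_, ?_⟩
  · intro σ x hx
    obtain ⟨a, rfl⟩ := Submodule.mem_span_singleton.mp hx
    rw [smul_comm σ a v', hact, smul_smul]
    exact Submodule.mem_span_singleton.mpr ⟨_, rfl⟩
  · refine ⟨?_, ?_⟩
    · rw [Submodule.disjoint_def]
      intro x hxC hx
      obtain ⟨a, rfl⟩ := Submodule.mem_span_singleton.mp hx
      have h1 : a • v ∈ C := by
        have h2 : a • v = a • v' - (a * t) • c := by
          rw [hv', smul_add, smul_smul, add_sub_cancel_right]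
        rw [h2]
        exact C.sub_mem hxC (C.smul_mem _ h.c_mem)
      rw [h.smul_v_mem h1, zero_smul]
    · rw [codisjoint_iff, Submodule.eq_top_iff']
      intro x
      obtain ⟨a, d, rfl⟩ := h.span x
      have h2 : a • v + d • c = (d - a * t) • c + a • v' := by
        rw [hv', smul_add, smul_smul, sub_smul]
        abel
      rw [h2]
      exact Submodule.add_mem_sup (C.smul_mem _ h.c_mem)
        (Submodule.mem_span_singleton.mpr ⟨_, rfl⟩)

end IsCocycleData

/-- Existence of cocycle data for an admissible extension. -/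
theorem exists_isCocycleData {C : Submodule (ZMod p) V} (hadm : IsAdmissibleExtension p V C) :
    ∃ (c v : V) (b : GQ → ZMod p), IsCocycleData C c v b := by
  have hp : p.Prime := Fact.out
  have : Finite V := Nat.finite_of_card_ne_zero (by rw [hadm.card_total]; exact pow_ne_zero 2 hp.ne_zero)
  have hV : Module.finrank (ZMod p) V = 2 := by
    have h := Module.natCard_eq_pow_finrank (K := ZMod p) (V := V)
    rw [hadm.card_total, Nat.card_zmod] at h
    exact (Nat.pow_right_injective hp.two_le h).symm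
  have hC : Module.finrank (ZMod p) C = 1 := by
    have h := Module.natCard_eq_pow_finrank (K := ZMod p) (V := C)
    rw [hadm.card_sub, Nat.card_zmod] at h
    have h' : p ^ 1 = p ^ Module.finrank (ZMod p) C := by rw [pow_one]; exact h
    exact (Nat.pow_right_injective hp.two_le h').symm
  obtain ⟨c0, hc0, hgen0⟩ := finrank_eq_one_iff'.mp hC
  have hCtop : C ≠ ⊤ := by
    intro h
    rw [h, finrank_top, hV] at hC
    omega
  obtain ⟨v, hv⟩ : ∃ v : V, v ∉ C := by
    by_contra hcon
    push Not at hcon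
    exact hCtop ((Submodule.eq_top_iff').mpr hcon)
  have hgen : ∀ x ∈ C, ∃ d : ZMod p, x = d • (c0 : V) := by
    intro x hx
    obtain ⟨d, hd⟩ := hgen0 ⟨x, hx⟩
    exact ⟨d, by rw [← Submodule.coe_smul, hd]⟩
  have hsup : C ⊔ Submodule.span (ZMod p) {v} = ⊤ := by
    apply Submodule.eq_top_of_finrank_eq
    have hlt : C < C ⊔ Submodule.span (ZMod p) {v} := by
      refine lt_of_le_of_ne le_sup_left ?_
      intro h
      apply hv
      rw [h]
      exact Submodule.mem_sup_right (Submodule.mem_span_singleton_self v)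
    have h1 := Submodule.finrank_lt_finrank_of_lt hlt
    have h2 := Submodule.finrank_le (C ⊔ Submodule.span (ZMod p) {v})
    omega
  have hb : ∀ σ : GQ, ∃ d : ZMod p, σ • v - chi p σ • v = d • (c0 : V) := by
    intro σ
    apply hgen
    rw [chi_eq_cycloExp]
    exact hadm.cyclo_quot σ v
  choose b hb using hb
  refine ⟨c0, v, b, c0.2, ?_, hv, fun σ => hadm.fixed_sub σ _ c0.2, ?_, ?_, hgen⟩
  · intro h
    exact hc0 (Subtype.ext h)
  · intro σ
    rw [← hb σ, add_sub_cancel]
  · intro x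
    have hx : x ∈ C ⊔ Submodule.span (ZMod p) {v} := by rw [hsup]; trivial
    obtain ⟨y, hy, z, hz, rfl⟩ := Submodule.mem_sup.mp hx
    obtain ⟨a, rfl⟩ := Submodule.mem_span_singleton.mp hz
    obtain ⟨d, rfl⟩ := hgen y hy
    exact ⟨a, d, add_comm _ _⟩

end Data

/-- **(T-a)** The cocycle of a non-split admissible extension and its properties. -/
theorem exists_cocycle_of_not_splits {p : ℕ} [Fact p.Prime] (h3 : 3 ≤ p)
    (V : Type) [AddCommGroup V] [Module (ZMod p) V] [DistribMulAction GQ V]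
    [SMulCommClass GQ (ZMod p) V] (C : Submodule (ZMod p) V)
    (hadm : IsAdmissibleExtensionCts p V C) (hns : ¬ SplitsGlobally C) :
    ∃ b : GQ → ZMod p,
      (∀ σ τ : GQ, b (σ * τ) = ((cycloChar p τ : (ZMod p)ˣ) : ZMod p) * b σ + b τ) ∧
      IsOpen {σ : GQ | cycloChar p σ = 1 ∧ b σ = 0} ∧
      (∃ σ : GQ, cycloChar p σ = 1 ∧ b σ ≠ 0) ∧
      (∀ ℓ : ℕ, ℓ.Prime → ℓ ≠ p → ∀ A : ValuationSubring (AlgebraicClosure ℚ),
        A.LiesOverPrime ℓ → ∀ σ ∈ A.inertiaSubgroupIn ℚ, cycloChar p σ = 1 ∧ b σ = 0) ∧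
      (∀ A : ValuationSubring (AlgebraicClosure ℚ), A.LiesOverPrime p →
        ∀ σ ∈ A.decompositionSubgroup ℚ, cycloChar p σ = 1 → b σ = 0) := by
  obtain ⟨c, v, b, h⟩ := exists_isCocycleData hadm.toIsAdmissibleExtension
  refine ⟨b, fun σ τ => h.cocycle σ τ, ?_, ?_, ?_, ?_⟩
  · have hset : {σ : GQ | cycloChar p σ = 1 ∧ b σ = 0} = {σ : GQ | ∀ x : V, σ • x = x} := by
      ext σ
      show (cycloChar p σ = 1 ∧ b σ = 0) ↔ ∀ x : V, σ • x = x
      rw [h.forall_smul_eq_iff, chi_eq_one_iff]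
    rw [hset]
    exact hadm.open_kernel
  · by_contra hcon
    push Not at hcon
    obtain ⟨g, hg⟩ := exists_chi_ne_one h3
    exact hns (h.splitsGlobally_of_forall hg fun σ hσ => hcon σ ((chi_eq_one_iff σ).mp hσ))
  · intro ℓ hℓ hℓp A hA σ hσ
    have h1 := (h.forall_smul_eq_iff σ).mp (hadm.unramified_outside ℓ hℓ hℓp A hA σ hσ)
    exact ⟨(chi_eq_one_iff σ).mp h1.1, h1.2⟩
  · intro A hA σ hσ hχ
    obtain ⟨C', hC', hcompl⟩ := hadm.locally_split A hA
    have hχ' : chi p σ = 1 := (chi_eq_one_iff σ).mpr hχ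
    -- decompose `v = y + z` with `y ∈ C`, `z ∈ C'`
    have hv : v ∈ C ⊔ C' := by rw [hcompl.sup_eq_top]; trivial
    obtain ⟨y, hy, z, hz, hyz⟩ := Submodule.mem_sup.mp hv
    have h1 : σ • z - z = b σ • c := by
      have hz' : z = v - y := by rw [← hyz, add_sub_cancel_left]
      rw [hz', smul_sub, h.act_v, hχ', one_smul, hadm.fixed_sub σ y hy]
      abel
    have h2 : b σ • c ∈ C ⊓ C' := by
      refine ⟨C.smul_mem _ h.c_mem, ?_⟩
      rw [← h1]
      exact C'.sub_mem (hC' σ hσ z hz) hz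
    rw [hcompl.inf_eq_bot, Submodule.mem_bot] at h2
    exact h.smul_c_eq_zero h2

/-- Companion to `exists_cocycle_of_not_splits`: any `b` satisfying the cocycle identity obeys the
conjugation formula `χ(g) * b (g h g⁻¹) = b h` for `h ∈ ker χ`. -/
theorem cocycle_conj {p : ℕ} [Fact p.Prime] {b : GQ → ZMod p}
    (hb : ∀ σ τ : GQ, b (σ * τ) = ((cycloChar p τ : (ZMod p)ˣ) : ZMod p) * b σ + b τ)
    (g : GQ) {k : GQ} (hk : cycloChar p k = 1) :
    ((cycloChar p g : (ZMod p)ˣ) : ZMod p) * b (g * k * g⁻¹) = b k := by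
  have h1 := hb (g * k * g⁻¹) g
  have h2 : g * k * g⁻¹ * g = g * k := by group
  rw [h2, hb g k, hk, Units.val_one, one_mul] at h1
  linear_combination -h1

/-- On `ker χ` a cocycle is additive. -/
theorem cocycle_mul_of_mem_ker {p : ℕ} [Fact p.Prime] {b : GQ → ZMod p}
    (hb : ∀ σ τ : GQ, b (σ * τ) = ((cycloChar p τ : (ZMod p)ˣ) : ZMod p) * b σ + b τ)
    (σ : GQ) {τ : GQ} (hτ : cycloChar p τ = 1) : b (σ * τ) = b σ + b τ := by
  rw [hb, hτ, Units.val_one, one_mul]

theorem cocycle_one {p : ℕ} [Fact p.Prime] {b : GQ → ZMod p}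
    (hb : ∀ σ τ : GQ, b (σ * τ) = ((cycloChar p τ : (ZMod p)ˣ) : ZMod p) * b σ + b τ) :
    b 1 = 0 := by
  have h := hb 1 1
  rw [mul_one, map_one, Units.val_one, one_mul] at h
  exact left_eq_add.mp h

end Fermat.Agent.S14Tr.Cocycle
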