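/-
S14, shared block [T], glue lemmas (owner: helper25), for helper14's assembly `Translation.lean`.

* `mem_adjoin_of_fixed`  : an algebraic number fixed by every automorphism fixing `ζ` lies in
  `ℚ(ζ)`;
* `exists_aut_extending` : an automorphism of a subfield `K ⊆ F ⊆ ℚ̄` extends to an automorphism
  of `ℚ̄`;
* `restrictScalars_*`    : for an abstract number field `L` and `K : IntermediateField ℚ L`,
  compatibility of the actions of `L ≃ₐ[K] L` and `L ≃ₐ[ℚ] L` on `𝓞 L` and on its ideals.
-/
import Mathlib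
import Fermat.Prelude.Def_ExtCitation_KummerBridge

set_option autoImplicit false

open scoped Pointwise NumberField

namespace Fermat.Agent.S14Tr.Glue

/-- The field of algebraic numbers. -/
local notation "Qb" => AlgebraicClosure ℚ
/-- Its Galois group. -/
local notation "GQ" => (AlgebraicClosure ℚ ≃ₐ[ℚ] AlgebraicClosure ℚ)

theorem isAlgClosure_rat : IsAlgClosure ℚ Qb := by
  have h : (DivisionRing.toRatAlgebra : Algebra ℚ Qb) = AlgebraicClosure.instAlgebra ℚ :=
    Subsingleton.elim _ _
  rw [h]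
  infer_instance

theorem isGalois_rat : IsGalois ℚ Qb :=
  have := isAlgClosure_rat
  inferInstance

theorem normal_rat : Normal ℚ Qb :=
  have := isGalois_rat
  inferInstance

attribute [local instance] isAlgClosure_rat isGalois_rat normal_rat

/-- (g2) An algebraic number fixed by every automorphism of `ℚ̄` fixing `ζ` lies in `ℚ(ζ)`. -/
theorem mem_adjoin_of_fixed {ζ : Qb} (x : Qb) (hx : ∀ σ : GQ, σ ζ = ζ → σ x = x) :
    x ∈ IntermediateField.adjoin ℚ {ζ} := by
  set E : IntermediateField ℚ Qb := IntermediateField.adjoin ℚ {ζ} with hE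
  have hζ : ζ ∈ E := IntermediateField.subset_adjoin ℚ {ζ} (Set.mem_singleton ζ)
  have h := InfiniteGalois.fixedField_fixingSubgroup (k := ℚ) (K := Qb) E
  rw [← h, IntermediateField.mem_fixedField_iff]
  intro σ hσ
  exact hx σ (hσ ⟨ζ, hζ⟩)

/-- (g3) An automorphism of a subfield `K` of an intermediate field `F ⊆ ℚ̄` extends to an
automorphism of `ℚ̄`. -/
theorem exists_aut_extending (F : IntermediateField ℚ Qb) (K : IntermediateField ℚ F)
    (σ : K ≃ₐ[ℚ] K) :
    ∃ g : GQ, ∀ x : K, g (((x : F) : Qb)) = (((σ x : K) : F) : Qb) := by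
  let _ : Algebra K Qb := ((F.val).comp K.val).toRingHom.toAlgebra
  have hmap : ∀ x : K, algebraMap K Qb x = ((x : F) : Qb) := fun _ => rfl
  have : IsScalarTower ℚ K Qb := IsScalarTower.of_algebraMap_eq (fun q => by
    rw [hmap]
    simp)
  refine ⟨σ.liftNormal Qb, fun x => ?_⟩
  have h := AlgEquiv.liftNormal_commutes σ Qb x
  rw [hmap, hmap] at h
  exact h

section abstract

variable {L : Type*} [Field L] [NumberField L] (K : IntermediateField ℚ L)

/-- (g4-a) The action of `σ : L ≃ₐ[K] L` on `𝓞 L` agrees with that of its restriction of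
scalars to `ℚ`. -/
theorem restrictScalars_smul (σ : L ≃ₐ[K] L) (x : 𝓞 L) :
    (σ.restrictScalars ℚ) • x = σ • x := rfl

/-- (g4-b) Inertia elements over `K` are inertia elements over `ℚ`. -/
theorem restrictScalars_mem_inertia (P : Ideal (𝓞 L)) {σ : L ≃ₐ[K] L}
    (hσ : σ ∈ P.inertia (L ≃ₐ[K] L)) :
    σ.restrictScalars ℚ ∈ P.inertia (L ≃ₐ[ℚ] L) := fun x => hσ x

/-- (g4-c) Stabilizer elements over `K` are stabilizer elements over `ℚ`. -/
theorem restrictScalars_smul_ideal (P : Ideal (𝓞 L)) {σ : L ≃ₐ[K] L}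
    (hσ : σ • P = P) : (σ.restrictScalars ℚ) • P = P := by
  ext x
  rw [Ideal.mem_pointwise_smul_iff_inv_smul_mem]
  have h1 : x ∈ σ • P ↔ σ⁻¹ • x ∈ P := Ideal.mem_pointwise_smul_iff_inv_smul_mem
  rw [hσ] at h1
  rw [h1]
  rfl

/-- (g4-d) Restriction of scalars is injective at `1`. -/
theorem eq_one_of_restrictScalars_eq_one {σ : L ≃ₐ[K] L}
    (h : σ.restrictScalars ℚ = 1) : σ = 1 := by
  ext x
  have := congrArg (fun f : L ≃ₐ[ℚ] L => f x) h
  simpa using this

/-- (g4-e) The restriction of scalars of a `K`-automorphism fixes `K`. -/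
theorem restrictScalars_apply_coe (σ : L ≃ₐ[K] L) (k : K) :
    (σ.restrictScalars ℚ) (k : L) = (k : L) := by
  rw [AlgEquiv.restrictScalars_apply]
  exact σ.commutes k

end abstract

end Fermat.Agent.S14Tr.Glue
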