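import Mathlib
import Fermat.Prelude.Def_ExtCitation_KummerBridge
import Fermat.Agent.S13.MinkGlue
import Fermat.Agent.S14.TrCocycle

/-!
# S14, block [T], part (T-b): Kummer generator and `ω²`-equivariance inside `ℚ̄`

Owner: helper21.  Input: the cocycle `b` of (T-a) (`TrCocycle.lean`).  Output: the finite Galois
extension `F / ℚ` cut out by `{χ = 1 ∧ b = 0}`, a primitive `p`-th root of unity `ζ ∈ F` and a
nonzero algebraic integer `θ ∈ F` with `σ θ = ζ ^ b(σ) · θ` for `σ ∈ ker χ` (a Lagrange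
resolvent), together with the `ω²`-equivariance of `θ ^ p`.
-/

set_option autoImplicit false

namespace Fermat.Agent.S14Tr.Kummer

open ExtCitation Fermat.Agent.S14Tr.Cocycle

/-- The algebraic closure of the rationals used by the frozen definitions. -/
abbrev Qb : Type := AlgebraicClosure ℚ

section Zeta

variable {p : ℕ} [Fact p.Prime]

/-- The Galois action on a primitive `p`-th root of unity is given by the cyclotomic exponent. -/
theorem apply_zeta {ζ : Qb} (hζ : IsPrimitiveRoot ζ p) (σ : GQ) :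
    σ ζ = ζ ^ ExtCitation.cycloExp p σ := by
  have : NeZero p := ⟨(Fact.out : p.Prime).ne_zero⟩
  have h1 := modularCyclotomicCharacter.spec (AlgebraicClosure ℚ) (card_rootsOfUnity_eq_self p)
    (σ : AlgebraicClosure ℚ ≃+* AlgebraicClosure ℚ) (SetLike.coe_mem hζ.toRootsOfUnity)
  exact h1

theorem cycloChar_eq_one_iff {ζ : Qb} (hζ : IsPrimitiveRoot ζ p) (σ : GQ) :
    ExtCitation.cycloChar p σ = 1 ↔ σ ζ = ζ := by
  have hp : p.Prime := Fact.out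
  have : NeZero p := ⟨hp.ne_zero⟩
  have : Fact (1 < p) := ⟨hp.one_lt⟩
  rw [apply_zeta hζ σ]
  constructor
  · intro h
    have h1 : ExtCitation.cycloExp p σ = 1 := by
      rw [← val_cycloChar, h, Units.val_one, ZMod.val_one]
    rw [h1, pow_one]
  · intro h
    have h1 : ζ ^ ExtCitation.cycloExp p σ = ζ ^ 1 := by rw [h, pow_one]
    have h2 := hζ.pow_inj (by
      rw [← val_cycloChar]
      exact ZMod.val_lt _) hp.one_lt h1
    apply Units.ext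
    rw [Units.val_one, coe_cycloChar, h2, Nat.cast_one]

end Zeta

section Ker

variable {p : ℕ} [Fact p.Prime] {b : GQ → ZMod p}

/-- The subgroup `{χ = 1 ∧ b = 0}` of the absolute Galois group. -/
def kerSubgroup
    (hb : ∀ σ τ : GQ, b (σ * τ) = ((cycloChar p τ : (ZMod p)ˣ) : ZMod p) * b σ + b τ) :
    Subgroup GQ where
  carrier := {σ | cycloChar p σ = 1 ∧ b σ = 0}
  one_mem' := ⟨map_one _, cocycle_one hb⟩
  mul_mem' := by
    rintro σ τ ⟨h1, h2⟩ ⟨h3, h4⟩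
    refine ⟨by rw [map_mul, h1, h3, one_mul], ?_⟩
    rw [hb, h2, h4, mul_zero, add_zero]
  inv_mem' := by
    rintro σ ⟨h1, h2⟩
    have h3 : cycloChar p σ⁻¹ = 1 := by rw [map_inv, h1, inv_one]
    refine ⟨h3, ?_⟩
    have := hb σ σ⁻¹
    rw [mul_inv_cancel, cocycle_one hb, h3, Units.val_one, one_mul, h2, zero_add] at this
    exact this.symm

theorem mem_kerSubgroup
    (hb : ∀ σ τ : GQ, b (σ * τ) = ((cycloChar p τ : (ZMod p)ˣ) : ZMod p) * b σ + b τ) (σ : GQ) :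
    σ ∈ kerSubgroup hb ↔ (cycloChar p σ = 1 ∧ b σ = 0) := Iff.rfl

theorem kerSubgroup_normal
    (hb : ∀ σ τ : GQ, b (σ * τ) = ((cycloChar p τ : (ZMod p)ˣ) : ZMod p) * b σ + b τ) :
    (kerSubgroup hb).Normal := by
  refine ⟨fun n hn g => ?_⟩
  obtain ⟨h1, h2⟩ := hn
  have h3 : cycloChar p (g * n * g⁻¹) = 1 := by
    rw [map_mul, map_mul, map_inv, h1, mul_one, mul_inv_cancel]
  refine ⟨h3, ?_⟩
  have h4 := cocycle_conj hb g h1
  rw [h2] at h4
  exact (mul_eq_zero.mp h4).resolve_left (Units.ne_zero _)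

/-- `b` is additive on `ker χ`, in the form needed for powers. -/
theorem b_pow
    (hb : ∀ σ τ : GQ, b (σ * τ) = ((cycloChar p τ : (ZMod p)ˣ) : ZMod p) * b σ + b τ)
    {σ : GQ} (hσ : cycloChar p σ = 1) (k : ℕ) : b (σ ^ k) = (k : ZMod p) * b σ := by
  induction k with
  | zero => rw [pow_zero, cocycle_one hb, Nat.cast_zero, zero_mul]
  | succ k ih =>
    rw [pow_succ, cocycle_mul_of_mem_ker hb _ hσ, ih, Nat.cast_succ]
    ring

theorem cycloChar_pow {σ : GQ} (hσ : cycloChar p σ = 1) (k : ℕ) : cycloChar p (σ ^ k) = 1 := by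
  rw [map_pow, hσ, one_pow]

/-- The finite Galois extension cut out by `{χ = 1 ∧ b = 0}`. -/
theorem exists_field
    (hb : ∀ σ τ : GQ, b (σ * τ) = ((cycloChar p τ : (ZMod p)ˣ) : ZMod p) * b σ + b τ)
    (hopen : IsOpen {σ : GQ | cycloChar p σ = 1 ∧ b σ = 0}) :
    ∃ F : IntermediateField ℚ Qb, FiniteDimensional ℚ F ∧ IsGalois ℚ F ∧
      (∀ σ : GQ, σ ∈ F.fixingSubgroup ↔ (cycloChar p σ = 1 ∧ b σ = 0)) ∧
      (∀ x : Qb, x ∈ F ↔ ∀ σ : GQ, cycloChar p σ = 1 → b σ = 0 → σ x = x) := by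
  have hnormal := kerSubgroup_normal hb
  have h1 : ((kerSubgroup hb : Subgroup GQ) : Set GQ) ∈ nhds (1 : GQ) :=
    hopen.mem_nhds (kerSubgroup hb).one_mem
  obtain ⟨E, hE, hEH⟩ := (krullTopology_mem_nhds_one_iff ℚ (AlgebraicClosure ℚ) _).mp h1
  obtain ⟨F, hF1, hF2, hF3⟩ :=
    Fermat.Agent.S13.MinkGlue.exists_finite_galois_of_open_normal (kerSubgroup hb) ⟨E, hE, hEH⟩
  refine ⟨F, hF1, hF2, fun σ => by rw [hF3]; rfl, fun x => ?_⟩
  have hgal : IsGalois ℚ (AlgebraicClosure ℚ) := Fermat.Agent.S13.MinkGlue.isGalois_rat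
  have hfix : IntermediateField.fixedField F.fixingSubgroup = F :=
    InfiniteGalois.fixedField_fixingSubgroup F
  constructor
  · intro hx σ h1 h2
    have hσ : σ ∈ F.fixingSubgroup := by rw [hF3]; exact ⟨h1, h2⟩
    exact hσ ⟨x, hx⟩
  · intro hx
    rw [← hfix, IntermediateField.mem_fixedField_iff]
    intro σ hσ
    rw [hF3] at hσ
    exact hx σ hσ.1 hσ.2

end Ker

section Resolvent

variable {p : ℕ} [Fact p.Prime]

/-- The Lagrange resolvent `Σ_{i<p} ζ⁻ⁱ · h₀ⁱ(x)`. -/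
noncomputable def resolvent (p : ℕ) (ζ : Qb) (h₀ : GQ) (x : Qb) : Qb :=
  ∑ i ∈ Finset.range p, (ζ⁻¹) ^ i * (h₀ ^ i) x

theorem apply_resolvent {ζ : Qb} (hζ : IsPrimitiveRoot ζ p) {h₀ : GQ} (hh₀ : h₀ ζ = ζ) {x : Qb}
    (hx : (h₀ ^ p) x = x) : h₀ (resolvent p ζ h₀ x) = ζ * resolvent p ζ h₀ x := by
  have hp : p.Prime := Fact.out
  have hζ0 : ζ ≠ 0 := hζ.ne_zero hp.ne_zero
  have hinv : h₀ ζ⁻¹ = ζ⁻¹ := by rw [map_inv₀, hh₀]
  unfold resolvent
  rw [map_sum, Finset.mul_sum]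
  set f : ℕ → Qb := fun j => ζ * ((ζ⁻¹) ^ j * (h₀ ^ j) x) with hf
  have h1 : ∀ i ∈ Finset.range p, h₀ ((ζ⁻¹) ^ i * (h₀ ^ i) x) = f (i + 1) := by
    intro i _
    have e1 : (h₀ ^ (i + 1)) x = h₀ ((h₀ ^ i) x) := by rw [pow_succ', AlgEquiv.mul_apply]
    have e2 : ζ * (ζ⁻¹) ^ (i + 1) = (ζ⁻¹) ^ i := by
      rw [pow_succ, mul_comm ((ζ⁻¹) ^ i), ← mul_assoc, mul_inv_cancel₀ hζ0, one_mul]
    show h₀ ((ζ⁻¹) ^ i * (h₀ ^ i) x) = ζ * ((ζ⁻¹) ^ (i + 1) * (h₀ ^ (i + 1)) x)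
    rw [map_mul, map_pow, hinv, e1, ← mul_assoc, e2]
  have h0p : f p = f 0 := by
    show ζ * ((ζ⁻¹) ^ p * (h₀ ^ p) x) = ζ * ((ζ⁻¹) ^ 0 * (h₀ ^ 0) x)
    rw [hx, inv_pow, hζ.pow_eq_one, pow_zero, pow_zero, inv_one]
    rfl
  have h2 : ∑ i ∈ Finset.range p, f (i + 1) = ∑ i ∈ Finset.range p, f i := by
    have a := Finset.sum_range_succ' f p
    have b := Finset.sum_range_succ f p
    rw [b, h0p] at a
    exact (add_right_cancel a).symm
  rw [Finset.sum_congr rfl h1, h2]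

/-- By Dedekind's independence of characters the resolvent does not vanish identically on a field
`F` on which the powers `h₀ ^ i`, `i < p`, are pairwise distinct. -/
theorem exists_resolvent_ne_zero (ζ : Qb) (F : IntermediateField ℚ Qb) (h₀ : GQ)
    (hinj : ∀ i j : ℕ, i < p → j < p → (∀ x ∈ F, (h₀ ^ i) x = (h₀ ^ j) x) → i = j) :
    ∃ x ∈ F, resolvent p ζ h₀ x ≠ 0 := by
  have hp : p.Prime := Fact.out
  let f : Fin p → (↥F →* Qb) := fun i =>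
    { toFun := fun x => (h₀ ^ (i : ℕ)) (x : Qb)
      map_one' := by simp
      map_mul' := by intro a b; simp }
  have hfinj : Function.Injective f := by
    intro i j hij
    apply Fin.ext
    apply hinj i j i.2 j.2
    intro x hx
    exact DFunLike.congr_fun hij ⟨x, hx⟩
  have hli : LinearIndependent Qb (fun i : Fin p => ((f i : ↥F →* Qb) : ↥F → Qb)) :=
    (linearIndependent_monoidHom ↥F Qb).comp f hfinj
  by_contra hcon
  push Not at hcon
  have h0 := Fintype.linearIndependent_iff.mp hli (fun i => (ζ⁻¹) ^ (i : ℕ)) (by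
    funext x
    rw [Finset.sum_apply, Pi.zero_apply]
    have h1 := hcon x x.2
    unfold resolvent at h1
    rw [← Fin.sum_univ_eq_sum_range (fun i => (ζ⁻¹) ^ i * (h₀ ^ i) (x : Qb)) p] at h1
    rw [← h1]
    rfl) ⟨0, hp.pos⟩
  simp at h0

end Resolvent

section Main

variable {p : ℕ} [Fact p.Prime] {b : GQ → ZMod p}

theorem apply_inv_apply (g : GQ) (y : Qb) : g (g⁻¹ y) = y := by
  rw [← AlgEquiv.mul_apply, mul_inv_cancel, AlgEquiv.one_apply]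

theorem inv_apply_apply (g : GQ) (y : Qb) : g⁻¹ (g y) = y := by
  rw [← AlgEquiv.mul_apply, inv_mul_cancel, AlgEquiv.one_apply]

theorem b_inv
    (hb : ∀ σ τ : GQ, b (σ * τ) = ((cycloChar p τ : (ZMod p)ˣ) : ZMod p) * b σ + b τ)
    {σ : GQ} (hσ : cycloChar p σ = 1) : b σ⁻¹ = - b σ := by
  have h := cocycle_mul_of_mem_ker hb σ⁻¹ hσ
  rw [inv_mul_cancel, cocycle_one hb] at h
  exact eq_neg_of_add_eq_zero_left h.symm

theorem exists_b_eq_one
    (hb : ∀ σ τ : GQ, b (σ * τ) = ((cycloChar p τ : (ZMod p)ˣ) : ZMod p) * b σ + b τ)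
    (hne : ∃ σ : GQ, cycloChar p σ = 1 ∧ b σ ≠ 0) :
    ∃ h₀ : GQ, cycloChar p h₀ = 1 ∧ b h₀ = 1 := by
  have : NeZero p := ⟨(Fact.out : p.Prime).ne_zero⟩
  obtain ⟨σ, h1, h2⟩ := hne
  refine ⟨σ ^ ((b σ)⁻¹).val, cycloChar_pow h1 _, ?_⟩
  rw [b_pow hb h1, ZMod.natCast_zmod_val, inv_mul_cancel₀ h2]

/-- The exponent `n` with `g ζ = ζ ^ n` is the cyclotomic character of `g`. -/
theorem natCast_eq_cycloChar {ζ : Qb} (hζ : IsPrimitiveRoot ζ p) {g : GQ} {n : ℕ}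
    (hg : g ζ = ζ ^ n) : (n : ZMod p) = ((cycloChar p g : (ZMod p)ˣ) : ZMod p) := by
  have hp : p.Prime := Fact.out
  rw [apply_zeta hζ g] at hg
  rw [coe_cycloChar, ZMod.natCast_eq_natCast_iff']
  have hord : orderOf ζ = p := hζ.eq_orderOf.symm
  have h1 : ζ ^ (ExtCitation.cycloExp p g % p) = ζ ^ (n % p) := by
    have e1 := pow_mod_orderOf ζ (ExtCitation.cycloExp p g)
    have e2 := pow_mod_orderOf ζ n
    rw [hord] at e1 e2
    rw [e1, e2, hg]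
  exact (hζ.pow_inj (Nat.mod_lt _ hp.pos) (Nat.mod_lt _ hp.pos) h1).symm

theorem zeta_pow_eq_of_cast_eq {ζ : Qb} (hζ : IsPrimitiveRoot ζ p) {m n : ℕ}
    (h : (m : ZMod p) = (n : ZMod p)) : ζ ^ m = ζ ^ n := by
  have h1 := (ZMod.natCast_eq_natCast_iff' m n p).mp h
  have hord : orderOf ζ = p := hζ.eq_orderOf.symm
  have e1 := pow_mod_orderOf ζ m
  have e2 := pow_mod_orderOf ζ n
  rw [hord] at e1 e2
  rw [← e1, ← e2, h1]

/-- **(T-b)** Kummer generator of the extension cut out by the cocycle `b`, with its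
`ω²`-equivariance. -/
theorem exists_kummer_generator (b : GQ → ZMod p)
    (hb : ∀ σ τ : GQ, b (σ * τ) = ((cycloChar p τ : (ZMod p)ˣ) : ZMod p) * b σ + b τ)
    (hopen : IsOpen {σ : GQ | cycloChar p σ = 1 ∧ b σ = 0})
    (hne : ∃ σ : GQ, cycloChar p σ = 1 ∧ b σ ≠ 0) :
    ∃ (F : IntermediateField ℚ Qb) (_ : FiniteDimensional ℚ F) (_ : IsGalois ℚ F) (ζ θ : Qb),
      (∀ σ : GQ, σ ∈ F.fixingSubgroup ↔ (cycloChar p σ = 1 ∧ b σ = 0)) ∧
      IsPrimitiveRoot ζ p ∧ ζ ∈ F ∧ θ ∈ F ∧ θ ≠ 0 ∧ IsIntegral ℤ θ ∧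
      (∀ σ : GQ, cycloChar p σ = 1 → σ θ = ζ ^ (b σ).val * θ) ∧
      (∀ (g : GQ) (n : ℕ), g ζ = ζ ^ n → ∃ y : Qb,
        (∀ h : GQ, cycloChar p h = 1 → h y = y) ∧ g (θ ^ p) = (θ ^ p) ^ (n ^ 2) * y ^ p) := by
  have hp : p.Prime := Fact.out
  have : NeZero p := ⟨hp.ne_zero⟩
  obtain ⟨F, hF1, hF2, hF3, hF4⟩ := exists_field hb hopen
  have : NeZero (p : Qb) := ⟨Nat.cast_ne_zero.mpr hp.ne_zero⟩
  obtain ⟨ζ, hζ⟩ := HasEnoughRootsOfUnity.exists_primitiveRoot Qb p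
  obtain ⟨h₀, hh1, hh2⟩ := exists_b_eq_one hb hne
  have hh₀ζ : h₀ ζ = ζ := (cycloChar_eq_one_iff hζ h₀).mp hh1
  have hζF : ζ ∈ F := (hF4 ζ).mpr fun σ h1 _ => (cycloChar_eq_one_iff hζ σ).mp h1
  -- `F` is stable under the Galois group
  have hstab : ∀ (g : GQ) (x : Qb), x ∈ F → g x ∈ F := by
    intro g x hx
    rw [hF4]
    intro σ h1 h2
    have hmem : g⁻¹ * σ * g⁻¹⁻¹ ∈ kerSubgroup hb :=
      (kerSubgroup_normal hb).conj_mem σ ⟨h1, h2⟩ g⁻¹
    have h3 := (hF4 x).mp hx _ hmem.1 hmem.2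
    rw [inv_inv, AlgEquiv.mul_apply, AlgEquiv.mul_apply] at h3
    have h4 := congrArg g h3
    rwa [apply_inv_apply] at h4
  -- the powers of `h₀` are distinct on `F`
  have hinj : ∀ i j : ℕ, i < p → j < p → (∀ x ∈ F, (h₀ ^ i) x = (h₀ ^ j) x) → i = j := by
    intro i j hi hj hx
    have hmem : (h₀ ^ j)⁻¹ * h₀ ^ i ∈ F.fixingSubgroup := by
      rw [IntermediateField.mem_fixingSubgroup_iff]
      intro x hxF
      rw [AlgEquiv.mul_apply, hx x hxF, inv_apply_apply]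
    rw [hF3] at hmem
    have hb0 := hmem.2
    rw [cocycle_mul_of_mem_ker hb _ (cycloChar_pow hh1 i), b_inv hb (cycloChar_pow hh1 j),
      b_pow hb hh1, b_pow hb hh1, hh2, mul_one, mul_one] at hb0
    have h5 : (i : ZMod p) = (j : ZMod p) := by linear_combination hb0
    have h6 := (ZMod.natCast_eq_natCast_iff' i j p).mp h5
    rwa [Nat.mod_eq_of_lt hi, Nat.mod_eq_of_lt hj] at h6
  obtain ⟨x₀, hx₀F, hx₀⟩ := exists_resolvent_ne_zero ζ F h₀ hinj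
  have hθ₀F : resolvent p ζ h₀ x₀ ∈ F :=
    F.sum_mem fun i _ => F.mul_mem (pow_mem (F.inv_mem hζF) i) (hstab _ _ hx₀F)
  have hpow : (h₀ ^ p) x₀ = x₀ :=
    (hF4 x₀).mp hx₀F _ (cycloChar_pow hh1 p) (by rw [b_pow hb hh1, hh2, mul_one, ZMod.natCast_self])
  have hθ₀1 : h₀ (resolvent p ζ h₀ x₀) = ζ * resolvent p ζ h₀ x₀ := apply_resolvent hζ hh₀ζ hpow
  generalize resolvent p ζ h₀ x₀ = θ₀ at hx₀ hθ₀F hθ₀1
  have hθ₀k : ∀ k : ℕ, (h₀ ^ k) θ₀ = ζ ^ k * θ₀ := by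
    intro k
    induction k with
    | zero => simp
    | succ k ih =>
      rw [pow_succ', AlgEquiv.mul_apply, ih, map_mul, map_pow, hh₀ζ, hθ₀1, pow_succ]
      ring
  have hθ₀h : ∀ h : GQ, cycloChar p h = 1 → h θ₀ = ζ ^ (b h).val * θ₀ := by
    intro h hh
    have hν1 : cycloChar p ((h₀ ^ (b h).val)⁻¹ * h) = 1 := by
      rw [map_mul, map_inv, cycloChar_pow hh1, inv_one, one_mul, hh]
    have hν2 : b ((h₀ ^ (b h).val)⁻¹ * h) = 0 := by
      rw [cocycle_mul_of_mem_ker hb _ hh, b_inv hb (cycloChar_pow hh1 _), b_pow hb hh1, hh2,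
        mul_one, ZMod.natCast_zmod_val, neg_add_cancel]
    have hν := (hF4 θ₀).mp hθ₀F _ hν1 hν2
    rw [AlgEquiv.mul_apply] at hν
    have h7 := congrArg (h₀ ^ (b h).val) hν
    rw [apply_inv_apply] at h7
    rw [h7, hθ₀k]
  -- make the generator integral
  have hcl : IsAlgClosure ℚ Qb := Fermat.Agent.S13.MinkGlue.isAlgClosure_rat
  have hQalg : Algebra.IsAlgebraic ℚ Qb := hcl.isAlgebraic
  have halg : IsAlgebraic ℤ θ₀ :=
    (IsFractionRing.isAlgebraic_iff ℤ ℚ Qb).mpr (Algebra.IsAlgebraic.isAlgebraic θ₀)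
  obtain ⟨m, hm0, hmint⟩ := halg.exists_integral_multiple
  have hθF : m • θ₀ ∈ F := F.zsmul_mem hθ₀F m
  have hθ0 : m • θ₀ ≠ 0 := by
    rw [zsmul_eq_mul]
    exact mul_ne_zero (Int.cast_ne_zero.mpr hm0) hx₀
  have hθh : ∀ h : GQ, cycloChar p h = 1 → h (m • θ₀) = ζ ^ (b h).val * (m • θ₀) := by
    intro h hh
    rw [map_zsmul, hθ₀h h hh, mul_smul_comm]
  refine ⟨F, hF1, hF2, ζ, m • θ₀, hF3, hζ, hζF, hθF, hθ0, hmint, hθh, ?_⟩
  generalize m • θ₀ = θ at hθF hθ0 hθh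
  intro g n hg
  have hθn : θ ^ (n ^ 2) ≠ 0 := pow_ne_zero _ hθ0
  refine ⟨g θ / θ ^ (n ^ 2), ?_, ?_⟩
  · intro h hh
    have hk1 : cycloChar p (g⁻¹ * h * g) = 1 := by
      rw [map_mul, map_mul, map_inv, hh, mul_one, inv_mul_cancel]
    have hk2 : ((cycloChar p g : (ZMod p)ˣ) : ZMod p) * b h = b (g⁻¹ * h * g) := by
      have h8 := cocycle_conj hb g hk1
      have h9 : g * (g⁻¹ * h * g) * g⁻¹ = h := by group
      rw [h9] at h8
      exact h8
    have hgθ : h (g θ) = (ζ ^ n) ^ (b (g⁻¹ * h * g)).val * g θ := by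
      have h10 := congrArg g (hθh _ hk1)
      rw [AlgEquiv.mul_apply, AlgEquiv.mul_apply, apply_inv_apply, map_mul, map_pow, hg] at h10
      exact h10
    have hexp : (ζ ^ n) ^ (b (g⁻¹ * h * g)).val = (ζ ^ (b h).val) ^ (n ^ 2) := by
      rw [← pow_mul, ← pow_mul]
      apply zeta_pow_eq_of_cast_eq hζ
      push_cast
      rw [ZMod.natCast_zmod_val, ZMod.natCast_zmod_val, ← hk2, natCast_eq_cycloChar hζ hg]
      ring
    rw [map_div₀, map_pow, hgθ, hθh h hh, hexp, mul_pow]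
    have hz : (ζ ^ (b h).val) ^ (n ^ 2) ≠ 0 :=
      pow_ne_zero _ (pow_ne_zero _ (hζ.ne_zero hp.ne_zero))
    field_simp
  · rw [map_pow, div_pow, ← pow_mul, ← pow_mul, mul_comm p (n ^ 2)]
    have hθn' : θ ^ (n ^ 2 * p) ≠ 0 := pow_ne_zero _ hθ0
    field_simp

end Main

end Fermat.Agent.S14Tr.Kummer
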