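import Mathlib
import Fermat.Prelude.Def_FLTPrelim_Ramification
import Fermat.Agent.S13.InertiaLift
import Fermat.Agent.S13.ValSub

/-!
# S14, block [T], part (T-c): decomposition / inertia lifts

Owner: helper64.  For a finite Galois extension `F/ℚ` inside `AlgebraicClosure ℚ`:

* `exists_lift_mem_decompositionSubgroup`: an automorphism of `F` preserving the prime of `F` below a
  valuation subring `A` of `AlgebraicClosure ℚ` lifts to the decomposition subgroup of `A`;
* `exists_valuationSubring_over`: every maximal ideal of `𝓞 F` is cut out by a valuation subring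
  of `AlgebraicClosure ℚ`;
* `eq_one_of_mem_inertia`, `eq_one_of_mem_stabilizer`: translation of "inertia subgroups
  (resp. decomposition subgroups inside a subgroup `S`) of valuation subrings over `ℓ` fix `F`"
  into statements about the primes of `𝓞 F` over `ℓ`.
-/

set_option autoImplicit false

open scoped Pointwise
open NumberField

namespace Fermat.Agent.S14Tr.Lift

open Fermat.Agent.S13 Fermat.Agent.S13.InertiaLift

/-- The field of algebraic numbers. -/
local notation "Qb" => AlgebraicClosure ℚ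
/-- Its Galois group. -/
local notation "GQ" => (AlgebraicClosure ℚ ≃ₐ[ℚ] AlgebraicClosure ℚ)
/-- The ring of all algebraic integers. -/
local notation "Zb" => integralClosure ℤ (AlgebraicClosure ℚ)

attribute [local instance] InertiaLift.isAlgClosure_rat InertiaLift.isGalois_rat
  InertiaLift.topZb InertiaLift.discreteZb InertiaLift.continuousSMul_Zb
  InertiaLift.isInvariant_int InertiaLift.primeOf_isPrime InertiaLift.smulCommClass_fixedRing
  InertiaLift.isInvariant_fixedRing InertiaLift.compactSpace_fixingSubgroup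

variable (F : IntermediateField ℚ (AlgebraicClosure ℚ))

/-- **Decomposition lift.** An automorphism `τ` of a finite Galois `F/ℚ` which preserves the set
of integers of `F` lying in `A.nonunits` lifts to an element of the decomposition subgroup
of `A`. -/
theorem exists_lift_mem_decompositionSubgroup (A : ValuationSubring (AlgebraicClosure ℚ))
    [FiniteDimensional ℚ F] [IsGalois ℚ F] (τ : F ≃ₐ[ℚ] F)
    (hτ : ∀ x : F, IsIntegral ℤ (x : AlgebraicClosure ℚ) →
      ((x : AlgebraicClosure ℚ) ∈ A.nonunits ↔ ((τ x : F) : AlgebraicClosure ℚ) ∈ A.nonunits)) :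
    ∃ σ : AlgebraicClosure ℚ ≃ₐ[ℚ] AlgebraicClosure ℚ,
      σ ∈ A.decompositionSubgroup ℚ ∧
      ∀ x : F, σ (x : AlgebraicClosure ℚ) = ((τ x : F) : AlgebraicClosure ℚ) := by
  -- Step 1: lift `τ` to `σ₀`
  obtain ⟨σ₀, hσ₀⟩ := AlgEquiv.restrictNormalHom_surjective (F := ℚ) (K₁ := F) Qb τ
  have hσ₀F : ∀ x : F, σ₀ (x : Qb) = ((τ x : F) : Qb) := by
    intro x
    rw [← hσ₀]
    exact (AlgEquiv.restrictNormal_commutes σ₀ F x).symm
  -- Step 2: move `σ₀ • Q` back to `Q` by an element of the fixing subgroup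
  set Q : Ideal Zb := primeOf A with hQ
  have hPQ : (σ₀ • Q).under (fixedRing F) = Q.under (fixedRing F) := by
    ext a
    show (a : Zb) ∈ σ₀ • Q ↔ (a : Zb) ∈ Q
    rw [Ideal.mem_pointwise_smul_iff_inv_smul_mem, mem_primeOf, mem_primeOf, coe_smul_Zb]
    have haF := coe_mem_of_mem_fixedRing F a
    have hy1 : σ₀ ((τ.symm ⟨_, haF⟩ : F) : Qb) = ((a : Zb) : Qb) := by
      rw [hσ₀F, AlgEquiv.apply_symm_apply]
    have hy2 : σ₀⁻¹ ((a : Zb) : Qb) = ((τ.symm ⟨_, haF⟩ : F) : Qb) := by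
      have h0 := congrArg (σ₀⁻¹ : GQ) hy1
      exact h0.symm.trans (σ₀.symm_apply_apply _)
    have hyint : IsIntegral ℤ ((τ.symm ⟨_, haF⟩ : F) : Qb) := by
      rw [← hy2]
      exact (σ₀⁻¹ • (a : Zb)).2
    have h1 := hτ _ hyint
    rw [AlgEquiv.apply_symm_apply] at h1
    rw [hy2]
    exact h1
  obtain ⟨ρ, hρ⟩ := Algebra.IsInvariant.exists_smul_of_under_eq_of_profinite
    (A := fixedRing F) (B := Zb) (G := F.fixingSubgroup) (σ₀ • Q) Q hPQ
  set σ₁ : GQ := (ρ : GQ) * σ₀ with hσ₁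
  have hσ₁Q : σ₁ • Q = Q := by
    rw [hσ₁, mul_smul]
    exact hρ.symm
  have hσ₁F : ∀ x : F, σ₁ (x : Qb) = ((τ x : F) : Qb) := by
    intro x
    rw [hσ₁, AlgEquiv.mul_apply, hσ₀F]
    exact ρ.2 ⟨_, (τ x).2⟩
  refine ⟨σ₁, ?_, hσ₁F⟩
  show σ₁ • A = A
  apply ValSub.smul_eq_of_integral_nonunits A A σ₁
  intro b hb
  have h1 : (⟨b, hb⟩ : Zb) ∈ Q ↔ σ₁ • (⟨b, hb⟩ : Zb) ∈ σ₁ • Q :=
    Ideal.smul_mem_pointwise_smul_iff.symm
  rw [hσ₁Q] at h1
  exact h1

/-- The ring homomorphism from the integers of `F` to the algebraic numbers. -/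
noncomputable def toQb : 𝓞 F →+* AlgebraicClosure ℚ :=
  (algebraMap F (AlgebraicClosure ℚ)).comp (algebraMap (𝓞 F) F)

theorem toQb_apply (x : 𝓞 F) : toQb F x = ((x : F) : AlgebraicClosure ℚ) := rfl

theorem toQb_injective : Function.Injective (toQb F) :=
  (algebraMap F (AlgebraicClosure ℚ)).injective.comp RingOfIntegers.coe_injective

theorem isIntegral_toQb (x : 𝓞 F) : IsIntegral ℤ (toQb F x) :=
  (x.2 : IsIntegral ℤ (x : F)).map (IsScalarTower.toAlgHom ℤ F (AlgebraicClosure ℚ))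

/-- Every maximal ideal of the ring of integers of `F` is cut out by a valuation subring of the
field of algebraic numbers. -/
theorem exists_valuationSubring_over_of_isMaximal [NumberField F] (P : Ideal (𝓞 F))
    [hP : P.IsMaximal] :
    ∃ A : ValuationSubring (AlgebraicClosure ℚ), ∀ x : 𝓞 F, x ∈ P ↔ toQb F x ∈ A.nonunits := by
  set φ : 𝓞 F →+* AlgebraicClosure ℚ := toQb F with hφ
  have hφinj : Function.Injective φ := toQb_injective F
  have hI : P.map φ.rangeRestrict ≠ ⊤ := by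
    intro htop
    have hbij : Function.Bijective φ.rangeRestrict :=
      ⟨fun a b hab =>
        hφinj (congrArg (fun z : φ.range => (z : AlgebraicClosure ℚ)) hab),
        φ.rangeRestrict_surjective⟩
    have h1 := Ideal.comap_map_of_bijective φ.rangeRestrict hbij (I := P)
    rw [htop, Ideal.comap_top] at h1
    exact hP.ne_top h1.symm
  obtain ⟨A, -, hIA⟩ := Ideal.image_subset_nonunits_valuationSubring (P.map φ.rangeRestrict) hI
  have key : ∀ y : 𝓞 F, y ∈ P → φ y ∈ A.nonunits := fun y hy =>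
    hIA ⟨φ.rangeRestrict y, Ideal.mem_map_of_mem _ hy, rfl⟩
  refine ⟨A, fun x => ⟨key x, fun hx => ?_⟩⟩
  by_contra hxP
  obtain ⟨y, i, hi, hyi⟩ := hP.exists_inv hxP
  have h1 : φ (y * x + i) ∈ A.nonunits := by
    rw [map_add, map_mul, ValuationSubring.mem_nonunits_iff]
    refine lt_of_le_of_lt (A.valuation.map_add _ _) (max_lt ?_ ?_)
    · rw [map_mul]
      exact mul_lt_one_of_nonneg_of_lt_one_right
        (InertiaLift.valuation_le_one_of_isIntegral A (isIntegral_toQb F y)) zero_le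
        (A.mem_nonunits_iff.mp hx)
    · exact A.mem_nonunits_iff.mp (key i hi)
  rw [hyi, map_one, ValuationSubring.mem_nonunits_iff, map_one] at h1
  exact lt_irrefl _ h1

theorem liesOverPrime_of_mem [NumberField F] {P : Ideal (𝓞 F)}
    {A : ValuationSubring (AlgebraicClosure ℚ)}
    (hA : ∀ x : 𝓞 F, x ∈ P ↔ toQb F x ∈ A.nonunits) {ℓ : ℕ} (hℓ : (ℓ : 𝓞 F) ∈ P) :
    A.LiesOverPrime ℓ := by
  have h := (hA _).mp hℓ
  rwa [map_natCast] at h

/-- **(L0)** A nonzero prime of `𝓞 F` contains a rational prime. -/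
theorem exists_prime_mem [NumberField F] (P : Ideal (𝓞 F)) [P.IsPrime] (hP : P ≠ ⊥) :
    ∃ ℓ : ℕ, ℓ.Prime ∧ (ℓ : 𝓞 F) ∈ P := by
  obtain ⟨q, hq : _ = Ideal.span _⟩ := IsPrincipalIdealRing.principal (P.under ℤ)
  have hq0 : q ≠ 0 := by
    rintro rfl
    apply hP
    apply Ideal.eq_bot_of_comap_eq_bot (R := ℤ)
    have : P.under ℤ = ⊥ := by rw [hq]; simp
    exact this
  have hqq : Prime q := by rw [← Ideal.span_singleton_prime hq0, ← hq]; infer_instance
  refine ⟨q.natAbs, Int.prime_iff_natAbs_prime.mp hqq, ?_⟩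
  have h1 : ((q.natAbs : ℕ) : ℤ) ∈ P.under ℤ := by
    rw [hq, Ideal.mem_span_singleton, Int.dvd_natAbs]
  have h2 : algebraMap ℤ (𝓞 F) ((q.natAbs : ℕ) : ℤ) ∈ P := h1
  simpa using h2

/-- The trivial valuation subring has no nonzero nonunits. -/
theorem mem_nonunits_top_iff (x : AlgebraicClosure ℚ) :
    x ∈ (⊤ : ValuationSubring (AlgebraicClosure ℚ)).nonunits ↔ x = 0 := by
  constructor
  · intro hx
    by_contra hx0
    have h1 : x⁻¹ ∈ (⊤ : ValuationSubring (AlgebraicClosure ℚ)) := ValuationSubring.mem_top _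
    rw [ValuationSubring.mem_nonunits_iff] at hx
    have h2 := (ValuationSubring.valuation_le_one_iff _ _).mpr h1
    rw [map_inv₀] at h2
    have h3 : (⊤ : ValuationSubring (AlgebraicClosure ℚ)).valuation x ≠ 0 := by
      rw [Valuation.ne_zero_iff]; exact hx0
    have h4 : 1 ≤ (⊤ : ValuationSubring (AlgebraicClosure ℚ)).valuation x := by
      have := (inv_le_one₀ (zero_lt_iff.mpr h3)).mp h2
      exact this
    exact absurd hx (not_lt.mpr h4)
  · rintro rfl
    rw [ValuationSubring.mem_nonunits_iff, map_zero]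
    exact zero_lt_one

/-- **(L2)** Every prime ideal of the ring of integers of `F` is cut out by a valuation subring
of the field of algebraic numbers. -/
theorem exists_valuationSubring_over [NumberField F] (P : Ideal (𝓞 F)) [hP : P.IsPrime] :
    ∃ A : ValuationSubring (AlgebraicClosure ℚ), ∀ x : 𝓞 F, x ∈ P ↔ toQb F x ∈ A.nonunits := by
  by_cases hbot : P = ⊥
  · refine ⟨⊤, fun x => ?_⟩
    rw [mem_nonunits_top_iff, hbot, Ideal.mem_bot]
    exact ((map_eq_zero_iff (toQb F) (toQb_injective F)).symm)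
  · have : P.IsMaximal := hP.isMaximal hbot
    exact exists_valuationSubring_over_of_isMaximal F P

variable [FiniteDimensional ℚ F] [IsGalois ℚ F]

/-- **(L3) Inertia translation.** If the inertia subgroups of all valuation subrings over `ℓ`
fix `F`, then every prime of `𝓞 F` containing `ℓ` has trivial inertia group in `Gal(F/ℚ)`. -/
theorem eq_one_of_mem_inertia [NumberField F] (ℓ : ℕ)
    (h : ∀ A : ValuationSubring (AlgebraicClosure ℚ), A.LiesOverPrime ℓ →
      A.inertiaSubgroupIn ℚ ≤ F.fixingSubgroup)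
    (P : Ideal (𝓞 F)) [P.IsPrime] (hP : (ℓ : 𝓞 F) ∈ P) (τ : F ≃ₐ[ℚ] F)
    (hτ : ∀ x : 𝓞 F, τ • x - x ∈ P) : τ = 1 := by
  obtain ⟨A, hA⟩ := exists_valuationSubring_over F P
  have hAℓ : A.LiesOverPrime ℓ := liesOverPrime_of_mem F hA hP
  have hint : ∀ x : F, IsIntegral ℤ (x : AlgebraicClosure ℚ) →
      ((τ x : F) : AlgebraicClosure ℚ) - (x : AlgebraicClosure ℚ) ∈ A.nonunits := by
    intro x hx
    have hx' : IsIntegral ℤ x :=
      (isIntegral_algebraMap_iff (algebraMap F (AlgebraicClosure ℚ)).injective).mp hx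
    let y : 𝓞 F := ⟨x, hx'⟩
    have h1 := (hA (τ • y - y)).mp (hτ y)
    rw [map_sub] at h1
    exact h1
  obtain ⟨σ, hσF, hσint⟩ := InertiaLift.exists_lift_inertia A F τ hint
  have hσI : σ ∈ A.inertiaSubgroupIn ℚ := ValSub.mem_inertiaSubgroupIn_of_integral A σ hσint
  have hσH : σ ∈ F.fixingSubgroup := h A hAℓ hσI
  ext x
  show ((τ x : F) : AlgebraicClosure ℚ) = (x : AlgebraicClosure ℚ)
  rw [← hσF x]
  exact hσH ⟨x, x.2⟩

/-- Same as `eq_one_of_mem_inertia`, in terms of `Ideal.inertia`. -/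
theorem inertia_eq_bot [NumberField F] (ℓ : ℕ)
    (h : ∀ A : ValuationSubring (AlgebraicClosure ℚ), A.LiesOverPrime ℓ →
      A.inertiaSubgroupIn ℚ ≤ F.fixingSubgroup)
    (P : Ideal (𝓞 F)) [P.IsPrime] (hP : (ℓ : 𝓞 F) ∈ P) :
    P.inertia (F ≃ₐ[ℚ] F) = ⊥ :=
  (Subgroup.eq_bot_iff_forall _).mpr fun τ hτ => eq_one_of_mem_inertia F ℓ h P hP τ hτ

/-- **(L4) Decomposition translation.** If the elements of the decomposition subgroups of all
valuation subrings over `ℓ` which lie in a subgroup `S` fix `F`, then an element of `Gal(F/ℚ)`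
stabilising a prime `P` of `𝓞 F` containing `ℓ`, all of whose lifts lie in `S`, is trivial. -/
theorem eq_one_of_mem_stabilizer [NumberField F] (ℓ : ℕ)
    (S : Subgroup (AlgebraicClosure ℚ ≃ₐ[ℚ] AlgebraicClosure ℚ))
    (h : ∀ A : ValuationSubring (AlgebraicClosure ℚ), A.LiesOverPrime ℓ →
      ∀ σ ∈ A.decompositionSubgroup ℚ, σ ∈ S → σ ∈ F.fixingSubgroup)
    (P : Ideal (𝓞 F)) [P.IsPrime] (hP : (ℓ : 𝓞 F) ∈ P) (τ : F ≃ₐ[ℚ] F)
    (hτP : ∀ x : 𝓞 F, x ∈ P ↔ τ • x ∈ P)
    (hτS : ∀ σ : AlgebraicClosure ℚ ≃ₐ[ℚ] AlgebraicClosure ℚ,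
      (∀ x : F, σ (x : AlgebraicClosure ℚ) = ((τ x : F) : AlgebraicClosure ℚ)) → σ ∈ S) :
    τ = 1 := by
  obtain ⟨A, hA⟩ := exists_valuationSubring_over F P
  have hAℓ : A.LiesOverPrime ℓ := liesOverPrime_of_mem F hA hP
  have hdec : ∀ x : F, IsIntegral ℤ (x : AlgebraicClosure ℚ) →
      ((x : AlgebraicClosure ℚ) ∈ A.nonunits ↔
        ((τ x : F) : AlgebraicClosure ℚ) ∈ A.nonunits) := by
    intro x hx
    have hx' : IsIntegral ℤ x :=
      (isIntegral_algebraMap_iff (algebraMap F (AlgebraicClosure ℚ)).injective).mp hx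
    let y : 𝓞 F := ⟨x, hx'⟩
    have h1 := hA y
    have h2 := hA (τ • y)
    exact h1.symm.trans ((hτP y).trans h2)
  obtain ⟨σ, hσD, hσF⟩ := exists_lift_mem_decompositionSubgroup F A τ hdec
  have hσH : σ ∈ F.fixingSubgroup := h A hAℓ σ hσD (hτS σ hσF)
  ext x
  show ((τ x : F) : AlgebraicClosure ℚ) = (x : AlgebraicClosure ℚ)
  rw [← hσF x]
  exact hσH ⟨x, x.2⟩

/-- Variant of (L4) with the stabiliser condition in the form `τ • P = P`. -/
theorem eq_one_of_smul_eq [NumberField F] (ℓ : ℕ)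
    (S : Subgroup (AlgebraicClosure ℚ ≃ₐ[ℚ] AlgebraicClosure ℚ))
    (h : ∀ A : ValuationSubring (AlgebraicClosure ℚ), A.LiesOverPrime ℓ →
      ∀ σ ∈ A.decompositionSubgroup ℚ, σ ∈ S → σ ∈ F.fixingSubgroup)
    (P : Ideal (𝓞 F)) [P.IsPrime] (hP : (ℓ : 𝓞 F) ∈ P) (τ : F ≃ₐ[ℚ] F)
    (hτP : τ • P = P)
    (hτS : ∀ σ : AlgebraicClosure ℚ ≃ₐ[ℚ] AlgebraicClosure ℚ,
      (∀ x : F, σ (x : AlgebraicClosure ℚ) = ((τ x : F) : AlgebraicClosure ℚ)) → σ ∈ S) :
    τ = 1 := by
  refine eq_one_of_mem_stabilizer F ℓ S h P hP τ (fun x => ?_) hτS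
  have h1 : x ∈ P ↔ τ • x ∈ τ • P := Ideal.smul_mem_pointwise_smul_iff.symm
  rw [hτP] at h1
  exact h1

end Fermat.Agent.S14Tr.Lift
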