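import Mathlib

/-!
# S14, shared block [T], part (T-d): the number-field / Galois bridge

For a Galois extension `L / K` of number fields:

* `ramificationIdx_eq_one_of_inertia_trivial`: a prime of `𝓞 L` with trivial inertia group in
  `Gal(L/K)` has ramification index one over `𝓞 K`;
* `ramificationIdx_inertiaDeg_eq_one_of_stabilizer_trivial`: a prime of `𝓞 L` with trivial
  stabiliser in `Gal(L/K)` has `e = f = 1` over `𝓞 K`;
* `span_eq_pow_of_inertia_trivial`: if all inertia groups are trivial and `α ∈ 𝓞 K` has an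
  `n`-th root in `L`, then `(α)` is the `n`-th power of an ideal of `𝓞 K`;
* `exists_pow_approx_of_stabilizer_trivial`: if a prime `Λ` of `𝓞 L` above `lam` has trivial
  stabiliser and `x ∈ 𝓞 K` has an `n`-th root in `L`, then `x` is an `n`-th power modulo every
  power of `lam`.

The versions with hypotheses `ramificationIdx = 1`, `inertiaDeg = 1` are exported too.
-/

set_option autoImplicit false

open NumberField
open scoped Pointwise

namespace Fermat.Agent.S14Tr.TrLocal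

section Bridge

variable {K L : Type*} [Field K] [NumberField K] [Field L] [NumberField L] [Algebra K L]
  [IsGalois K L]

/-- Trivial inertia group in `Gal(L/K)` at a prime `Q` of `𝓞 L` gives ramification index one. -/
theorem ramificationIdx_eq_one_of_inertia_trivial (Q : Ideal (𝓞 L)) [Q.IsPrime]
    (hI : ∀ σ : L ≃ₐ[K] L, σ ∈ Q.inertia (L ≃ₐ[K] L) → σ = 1) :
    Q.ramificationIdx (𝓞 K) = 1 := by
  have h := Ideal.card_inertia_eq_ramificationIdxIn (G := L ≃ₐ[K] L) (Q.under (𝓞 K)) Q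
  rw [Ideal.ramificationIdxIn_eq_ramificationIdx (Q.under (𝓞 K)) Q (L ≃ₐ[K] L)] at h
  rw [← h]
  have : Q.inertia (L ≃ₐ[K] L) = ⊥ := by
    rw [Subgroup.eq_bot_iff_forall]
    exact hI
  rw [this]
  exact Subgroup.card_bot

/-- Trivial stabiliser in `Gal(L/K)` of a prime `Q` of `𝓞 L` gives `e = f = 1`. -/
theorem ramificationIdx_inertiaDeg_eq_one_of_stabilizer_trivial (Q : Ideal (𝓞 L)) [Q.IsPrime]
    (hD : ∀ σ : L ≃ₐ[K] L, σ • Q = Q → σ = 1) :
    Q.ramificationIdx (𝓞 K) = 1 ∧ Q.inertiaDeg (𝓞 K) = 1 := by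
  have h := Ideal.card_stabilizer_eq (G := L ≃ₐ[K] L) (Q.under (𝓞 K)) Q
  rw [Ideal.ramificationIdxIn_eq_ramificationIdx (Q.under (𝓞 K)) Q (L ≃ₐ[K] L),
    Ideal.inertiaDegIn_eq_inertiaDeg (Q.under (𝓞 K)) Q (L ≃ₐ[K] L)] at h
  have : MulAction.stabilizer (L ≃ₐ[K] L) Q = ⊥ := by
    rw [Subgroup.eq_bot_iff_forall]
    intro σ hσ
    exact hD σ (MulAction.mem_stabilizer_iff.mp hσ)
  rw [this, Subgroup.card_bot] at h
  exact ⟨Nat.eq_one_of_mul_eq_one_right h.symm, Nat.eq_one_of_mul_eq_one_left h.symm⟩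

end Bridge

section Core

variable {K L : Type*} [Field K] [NumberField K] [Field L] [NumberField L] [Algebra K L]

omit [NumberField K] in
/-- The old-style ramification index is one as soon as the new-style one is. -/
theorem ramificationIdx'_eq_one (Q : Ideal (𝓞 L)) [Q.IsPrime] (hQ : Q ≠ ⊥)
    (he : Q.ramificationIdx (𝓞 K) = 1) : (Q.under (𝓞 K)).ramificationIdx' Q = 1 := by
  rw [Ideal.ramificationIdx'_eq_ramificationIdx (Q.under (𝓞 K)) Q (Ideal.under_ne_bot (𝓞 K) hQ)]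
  exact he

/-- Multiplicities at an unramified prime do not change under extension of ideals. -/
theorem emultiplicity_map_eq (Q : Ideal (𝓞 L)) [Q.IsPrime] (hQ : Q ≠ ⊥)
    (he : Q.ramificationIdx (𝓞 K) = 1) {I : Ideal (𝓞 K)} (hI : I ≠ ⊥) :
    emultiplicity Q (I.map (algebraMap (𝓞 K) (𝓞 L))) = emultiplicity (Q.under (𝓞 K)) I := by
  have hq0 : Q.under (𝓞 K) ≠ ⊥ := Ideal.under_ne_bot (𝓞 K) hQ
  have hqirr : Irreducible (Q.under (𝓞 K)) :=
    ((Ideal.prime_iff_isPrime hq0).mpr inferInstance).irreducible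
  have hQirr : Irreducible Q := ((Ideal.prime_iff_isPrime hQ).mpr inferInstance).irreducible
  rw [Ideal.IsDedekindDomain.emultiplicity_map_eq_ramificationIdx'_mul hI hqirr hQirr hQ,
    ramificationIdx'_eq_one Q hQ he, Nat.cast_one, one_mul]

/-- Core A: at an unramified prime, the multiplicity of `(α)` is `n` times that of `(θ)` if
`θ ^ n = α`. -/
theorem emultiplicity_span_eq_mul (Q : Ideal (𝓞 L)) [Q.IsPrime] (hQ : Q ≠ ⊥)
    (he : Q.ramificationIdx (𝓞 K) = 1) {n : ℕ} {α : 𝓞 K} (hα : α ≠ 0) {θ : 𝓞 L}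
    (hθ : θ ^ n = algebraMap (𝓞 K) (𝓞 L) α) :
    emultiplicity (Q.under (𝓞 K)) (Ideal.span {α}) = n * emultiplicity Q (Ideal.span {θ}) := by
  have hI : (Ideal.span {α} : Ideal (𝓞 K)) ≠ ⊥ := by simpa using hα
  rw [← emultiplicity_map_eq Q hQ he hI, Ideal.map_span, Set.image_singleton, ← hθ,
    ← Ideal.span_singleton_pow, emultiplicity_pow ((Ideal.prime_iff_isPrime hQ).mpr inferInstance)]

/-- If `L / K` is unramified at all finite primes and `α ∈ 𝓞 K` is an `n`-th power in `𝓞 L`,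
then `(α)` is the `n`-th power of an ideal of `𝓞 K`. -/
theorem span_eq_pow_of_ramificationIdx_eq_one_int {n : ℕ} (α : 𝓞 K) (hα : α ≠ 0) (θ : 𝓞 L)
    (hθ : θ ^ n = algebraMap (𝓞 K) (𝓞 L) α)
    (he : ∀ Q : Ideal (𝓞 L), Q.IsPrime → Q ≠ ⊥ → Q.ramificationIdx (𝓞 K) = 1) :
    ∃ 𝔞 : Ideal (𝓞 K), Ideal.span {α} = 𝔞 ^ n := by
  classical
  rcases Nat.eq_zero_or_pos n with hn0 | hnpos
  · subst hn0
    refine ⟨⊤, ?_⟩
    have h1 : α = 1 := by
      apply FaithfulSMul.algebraMap_injective (𝓞 K) (𝓞 L)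
      rw [← hθ, pow_zero, map_one]
    rw [h1, pow_zero, Ideal.one_eq_top, Ideal.span_singleton_one]
  have hn : n ≠ 0 := hnpos.ne'
  have hI : (Ideal.span {α} : Ideal (𝓞 K)) ≠ ⊥ := by simpa using hα
  have key : ∀ q ∈ UniqueFactorizationMonoid.normalizedFactors (Ideal.span {α} : Ideal (𝓞 K)),
      n ∣ Multiset.count q (UniqueFactorizationMonoid.normalizedFactors
        (Ideal.span {α} : Ideal (𝓞 K))) := by
    intro q hq
    have hqprime : Prime q := UniqueFactorizationMonoid.prime_of_normalized_factor q hq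
    have hq0 : q ≠ ⊥ := hqprime.ne_zero
    have : q.IsPrime := Ideal.isPrime_of_prime hqprime
    obtain ⟨Q, -, hQprime, hQq⟩ :=
      Ideal.exists_ideal_over_prime_of_isIntegral q (⊥ : Ideal (𝓞 L)) (by simp)
    have := hQprime
    have hQ0 : Q ≠ ⊥ := by
      rintro rfl
      apply hq0
      rw [← hQq]
      exact Ideal.comap_bot_of_injective _ (FaithfulSMul.algebraMap_injective (𝓞 K) (𝓞 L))
    have hQu : Q.under (𝓞 K) = q := hQq
    have h := emultiplicity_span_eq_mul Q hQ0 (he Q hQprime hQ0) hα hθ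
    rw [hQu, UniqueFactorizationMonoid.emultiplicity_eq_count_normalizedFactors
      hqprime.irreducible hI, normalize_eq] at h
    have hθ0 : θ ≠ 0 := by
      rintro rfl
      rw [zero_pow hn] at hθ
      exact hα ((FaithfulSMul.algebraMap_injective (𝓞 K) (𝓞 L)) (by rw [← hθ, map_zero]))
    have hfin : FiniteMultiplicity Q (Ideal.span {θ}) :=
      FiniteMultiplicity.of_prime_left ((Ideal.prime_iff_isPrime hQ0).mpr inferInstance)
        (by simpa using hθ0)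
    rw [hfin.emultiplicity_eq_multiplicity] at h
    exact ⟨multiplicity Q (Ideal.span {θ}), by exact_mod_cast h⟩
  obtain ⟨u, hu⟩ := Multiset.exists_smul_of_dvd_count _ key
  refine ⟨u.prod, ?_⟩
  rw [← Multiset.prod_nsmul, ← hu, Ideal.prod_normalizedFactors_eq_self hI]

/-- Field-level version of `span_eq_pow_of_ramificationIdx_eq_one_int`: the root `θ` is only
assumed to lie in `L`. -/
theorem span_eq_pow_of_ramificationIdx_eq_one {n : ℕ} (hn : n ≠ 0) (α : 𝓞 K) (hα : α ≠ 0)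
    (θ : L) (hθ : θ ^ n = algebraMap K L (α : K))
    (he : ∀ Q : Ideal (𝓞 L), Q.IsPrime → Q ≠ ⊥ → Q.ramificationIdx (𝓞 K) = 1) :
    ∃ 𝔞 : Ideal (𝓞 K), Ideal.span {α} = 𝔞 ^ n := by
  have hint : IsIntegral ℤ θ := by
    refine IsIntegral.of_pow (Nat.pos_of_ne_zero hn) ?_
    rw [hθ]
    exact (RingOfIntegers.isIntegral_coe α).map (IsScalarTower.toAlgHom ℤ K L)
  obtain ⟨θ', rfl⟩ : ∃ θ' : 𝓞 L, (θ' : L) = θ := ⟨⟨θ, hint⟩, rfl⟩
  refine span_eq_pow_of_ramificationIdx_eq_one_int α hα θ' ?_ he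
  apply RingOfIntegers.ext
  have h1 : ((θ' ^ n : 𝓞 L) : L) = (θ' : L) ^ n := by simp
  have h2 : ((algebraMap (𝓞 K) (𝓞 L) α : 𝓞 L) : L) = algebraMap K L (α : K) := rfl
  rw [h1, h2, hθ]

/-- Core C: at an unramified prime `Q`, `Q ^ m ∩ 𝓞 K = (Q ∩ 𝓞 K) ^ m`. -/
theorem mem_pow_of_algebraMap_mem_pow (Q : Ideal (𝓞 L)) [Q.IsPrime] (hQ : Q ≠ ⊥)
    (he : Q.ramificationIdx (𝓞 K) = 1) {z : 𝓞 K} {m : ℕ}
    (hz : algebraMap (𝓞 K) (𝓞 L) z ∈ Q ^ m) : z ∈ (Q.under (𝓞 K)) ^ m := by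
  rcases eq_or_ne z 0 with rfl | hz0
  · exact zero_mem _
  have hI : (Ideal.span {z} : Ideal (𝓞 K)) ≠ ⊥ := by simpa using hz0
  rw [← Ideal.dvd_span_singleton, pow_dvd_iff_le_emultiplicity, ← emultiplicity_map_eq Q hQ he hI,
    ← pow_dvd_iff_le_emultiplicity, Ideal.map_span, Set.image_singleton, Ideal.dvd_span_singleton]
  exact hz

attribute [local instance] Ideal.Quotient.field in
/-- If `f(Q | q) = 1`, every element of `𝓞 L` is congruent modulo `Q` to an element of `𝓞 K`. -/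
theorem exists_sub_mem_of_inertiaDeg_eq_one (Q : Ideal (𝓞 L)) [Q.IsPrime] (hQ : Q ≠ ⊥)
    (hf : Q.inertiaDeg (𝓞 K) = 1) (z : 𝓞 L) :
    ∃ c : 𝓞 K, z - algebraMap (𝓞 K) (𝓞 L) c ∈ Q := by
  have hq0 : Q.under (𝓞 K) ≠ ⊥ := Ideal.under_ne_bot (𝓞 K) hQ
  have : (Q.under (𝓞 K)).IsMaximal := Ideal.IsPrime.isMaximal inferInstance hq0
  have : Q.IsMaximal := Ideal.IsPrime.isMaximal inferInstance hQ
  have h1 : Module.finrank (𝓞 K ⧸ Q.under (𝓞 K)) (𝓞 L ⧸ Q) = 1 := by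
    rw [← Ideal.inertiaDeg'_algebraMap (Q.under (𝓞 K)) Q,
      Ideal.inertiaDeg'_eq_inertiaDeg (Q.under (𝓞 K)) Q]
    exact hf
  obtain ⟨c, hc⟩ := (finrank_eq_one_iff_of_nonzero' (1 : 𝓞 L ⧸ Q) one_ne_zero).mp h1
    (Ideal.Quotient.mk Q z)
  obtain ⟨c, rfl⟩ := Ideal.Quotient.mk_surjective c
  refine ⟨c, ?_⟩
  rw [← Ideal.Quotient.eq, ← hc, Algebra.smul_def, mul_one]
  rfl

/-- Core B: if `e(Q | q) = f(Q | q) = 1`, every element of `𝓞 L` is congruent modulo `Q ^ m` to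
an element of `𝓞 K`. -/
theorem exists_sub_mem_pow (Q : Ideal (𝓞 L)) [Q.IsPrime] (hQ : Q ≠ ⊥)
    (he : Q.ramificationIdx (𝓞 K) = 1) (hf : Q.inertiaDeg (𝓞 K) = 1) (z : 𝓞 L) (m : ℕ) :
    ∃ c : 𝓞 K, z - algebraMap (𝓞 K) (𝓞 L) c ∈ Q ^ m := by
  have hQprime : Prime Q := (Ideal.prime_iff_isPrime hQ).mpr inferInstance
  -- a uniformiser coming from `𝓞 K`
  obtain ⟨π, hπq, hπ2⟩ : ∃ π ∈ Q.under (𝓞 K), algebraMap (𝓞 K) (𝓞 L) π ∉ Q ^ 2 := by
    have h1 : ¬ (Q.under (𝓞 K)).ramificationIdx' Q ≠ 1 := by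
      rw [ramificationIdx'_eq_one Q hQ he]; simp
    rw [Ideal.ramificationIdx'_ne_one_iff Ideal.map_comap_le, Ideal.map_le_iff_le_comap,
      SetLike.not_le_iff_exists] at h1
    obtain ⟨π, hπ, hπ'⟩ := h1
    exact ⟨π, hπ, hπ'⟩
  have hπQ : algebraMap (𝓞 K) (𝓞 L) π ∈ Q := hπq
  have hmult : emultiplicity Q (Ideal.span {algebraMap (𝓞 K) (𝓞 L) π}) = 1 := by
    have : emultiplicity Q (Ideal.span {algebraMap (𝓞 K) (𝓞 L) π}) = ((1 : ℕ) : ℕ∞) := by
      rw [emultiplicity_eq_coe]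
      constructor
      · rw [pow_one, Ideal.dvd_span_singleton]; exact hπQ
      · rw [Ideal.dvd_span_singleton]; exact hπ2
    simpa using this
  induction m with
  | zero => exact ⟨0, by simp⟩
  | succ m ih =>
    obtain ⟨c, hc⟩ := ih
    have ha : (algebraMap (𝓞 K) (𝓞 L) π) ^ m ∈ Q ^ m := Ideal.pow_mem_pow hπQ m
    have ha' : (algebraMap (𝓞 K) (𝓞 L) π) ^ m ∉ Q ^ (m + 1) := by
      rw [← Ideal.dvd_span_singleton, ← Ideal.span_singleton_pow, pow_dvd_iff_le_emultiplicity,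
        emultiplicity_pow hQprime, hmult, mul_one]
      exact_mod_cast Nat.not_succ_le_self m
    obtain ⟨d, e, he', hde⟩ := Ideal.exists_mul_add_mem_pow_succ hQ _ _ ha ha' hc
    obtain ⟨d₀, hd₀⟩ := exists_sub_mem_of_inertiaDeg_eq_one Q hQ hf d
    refine ⟨c + π ^ m * d₀, ?_⟩
    have hrw : z - algebraMap (𝓞 K) (𝓞 L) (c + π ^ m * d₀) =
        (algebraMap (𝓞 K) (𝓞 L) π) ^ m * (d - algebraMap (𝓞 K) (𝓞 L) d₀) + e := by
      rw [map_add, map_mul, map_pow]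
      linear_combination -hde
    rw [hrw, pow_succ]
    exact Ideal.add_mem _ (Ideal.mul_mem_mul ha hd₀) (by rwa [← pow_succ])

/-- If `e(Q | q) = f(Q | q) = 1` and `x ∈ 𝓞 K` is an `n`-th power in `𝓞 L`, then `x` is an
`n`-th power modulo every power of `q = Q ∩ 𝓞 K`. -/
theorem exists_pow_approx_int (Q : Ideal (𝓞 L)) [Q.IsPrime] (hQ : Q ≠ ⊥)
    (he : Q.ramificationIdx (𝓞 K) = 1) (hf : Q.inertiaDeg (𝓞 K) = 1) {n : ℕ} (x : 𝓞 K)
    (θ : 𝓞 L) (hθ : θ ^ n = algebraMap (𝓞 K) (𝓞 L) x) (m : ℕ) :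
    ∃ c : 𝓞 K, x - c ^ n ∈ (Q.under (𝓞 K)) ^ m := by
  obtain ⟨c, hc⟩ := exists_sub_mem_pow Q hQ he hf θ m
  refine ⟨c, mem_pow_of_algebraMap_mem_pow Q hQ he ?_⟩
  rw [map_sub, map_pow, ← hθ]
  exact Ideal.mem_of_dvd _ (sub_dvd_pow_sub_pow _ _ n) hc

/-- Field-level version of `exists_pow_approx_int`. -/
theorem exists_pow_approx_of_ramificationIdx_inertiaDeg_eq_one (Q : Ideal (𝓞 L)) [Q.IsPrime]
    (hQ : Q ≠ ⊥) (he : Q.ramificationIdx (𝓞 K) = 1) (hf : Q.inertiaDeg (𝓞 K) = 1) {n : ℕ}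
    (hn : n ≠ 0) (x : 𝓞 K) (θ : L) (hθ : θ ^ n = algebraMap K L (x : K)) (m : ℕ) :
    ∃ c : 𝓞 K, x - c ^ n ∈ (Q.under (𝓞 K)) ^ m := by
  have hint : IsIntegral ℤ θ := by
    refine IsIntegral.of_pow (Nat.pos_of_ne_zero hn) ?_
    rw [hθ]
    exact (RingOfIntegers.isIntegral_coe x).map (IsScalarTower.toAlgHom ℤ K L)
  obtain ⟨θ', rfl⟩ : ∃ θ' : 𝓞 L, (θ' : L) = θ := ⟨⟨θ, hint⟩, rfl⟩
  refine exists_pow_approx_int Q hQ he hf x θ' ?_ m
  apply RingOfIntegers.ext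
  have h1 : ((θ' ^ n : 𝓞 L) : L) = (θ' : L) ^ n := by simp
  have h2 : ((algebraMap (𝓞 K) (𝓞 L) x : 𝓞 L) : L) = algebraMap K L (x : K) := rfl
  rw [h1, h2, hθ]

end Core

section Main

variable {K L : Type*} [Field K] [NumberField K] [Field L] [NumberField L] [Algebra K L]
  [IsGalois K L]

/-- **(d1)** If every nonzero prime of `𝓞 L` has trivial inertia group in `Gal(L/K)` and
`α ∈ 𝓞 K` has an `n`-th root `θ` in `L`, then `(α)` is the `n`-th power of an ideal. -/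
theorem span_eq_pow_of_inertia_trivial {p : ℕ} (hp : p.Prime) (α : 𝓞 K) (hα : α ≠ 0) (θ : L)
    (hθ : θ ^ p = algebraMap K L (α : K))
    (hI : ∀ Q : Ideal (𝓞 L), Q.IsPrime → Q ≠ ⊥ →
      ∀ σ : L ≃ₐ[K] L, σ ∈ Q.inertia (L ≃ₐ[K] L) → σ = 1) :
    ∃ 𝔞 : Ideal (𝓞 K), Ideal.span {α} = 𝔞 ^ p :=
  span_eq_pow_of_ramificationIdx_eq_one hp.ne_zero α hα θ hθ fun Q hQ hQ0 =>
    haveI := hQ
    ramificationIdx_eq_one_of_inertia_trivial Q (hI Q hQ hQ0)

/-- **(d2)** If a prime `Λ` of `𝓞 L` above `lam` has trivial stabiliser in `Gal(L/K)` and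
`x ∈ 𝓞 K` has a `p`-th root `θ'` in `L`, then `x` is a `p`-th power modulo every power of
`lam`. -/
theorem exists_pow_approx_of_stabilizer_trivial {p : ℕ} (hp : p.Prime) (lam : Ideal (𝓞 K))
    [lam.IsPrime] (hlam : lam ≠ ⊥) (Λ : Ideal (𝓞 L)) [Λ.IsPrime] [Λ.LiesOver lam]
    (hD : ∀ σ : L ≃ₐ[K] L, σ • Λ = Λ → σ = 1) (x : 𝓞 K) (θ' : L)
    (hθ' : θ' ^ p = algebraMap K L (x : K)) (m : ℕ) :
    ∃ c : 𝓞 K, x - c ^ p ∈ lam ^ m := by
  have hΛ : Λ ≠ ⊥ := Ideal.ne_bot_of_liesOver_of_ne_bot hlam Λ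
  obtain ⟨he, hf⟩ := ramificationIdx_inertiaDeg_eq_one_of_stabilizer_trivial Λ hD
  have := exists_pow_approx_of_ramificationIdx_inertiaDeg_eq_one Λ hΛ he hf hp.ne_zero x θ' hθ' m
  rwa [← Ideal.over_def Λ lam] at this

end Main

end Fermat.Agent.S14Tr.TrLocal
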