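import Mathlib
import Fermat.Prelude.Def_ExtCitation_AdmissibleExtension_v2
import Fermat.Prelude.Def_ExtCitation_KummerBridge
import Fermat.Agent.S14.Interface
import Fermat.Agent.S14.TrCocycle
import Fermat.Agent.S14.TrLift
import Fermat.Agent.S14.TrGlue
import Fermat.Agent.S14.TrLocal
import Fermat.Agent.S14.TrKummer

/-!
# S14, shared block [T]: assembly (owner helper14)

`extVanishingCts_of_kummerVanishing : KummerVanishing p → ExtCitation.ExtVanishingCts p` for `3 ≤ p`.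
-/

set_option autoImplicit false
open NumberField ExtCitation
open scoped Pointwise

namespace Fermat.Agent.S14Tr

local notation "Qb" => AlgebraicClosure ℚ
local notation "GQ" => (AlgebraicClosure ℚ ≃ₐ[ℚ] AlgebraicClosure ℚ)

/-- The inclusion `F → ℚ̄` as a `ℚ`-algebra hom for the canonical `ℚ`-algebra structures. -/
noncomputable def incl (F : IntermediateField ℚ Qb) : F →ₐ[ℚ] Qb :=
  (algebraMap F Qb).toRatAlgHom

@[simp] theorem incl_apply (F : IntermediateField ℚ Qb) (x : F) : incl F x = (x : Qb) := rfl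

/-- An automorphism of `ℚ̄` fixing `ζ` fixes `ℚ(ζ)` pointwise (for `ℚ(ζ)` inside `F ⊆ ℚ̄`). -/
theorem apply_eq_of_mem_adjoin (F : IntermediateField ℚ Qb) (ζF : F) (σ : GQ)
    (hσ : σ (ζF : Qb) = ζF) (x : F) (hx : x ∈ IntermediateField.adjoin ℚ {ζF}) :
    σ (x : Qb) = x := by
  let φ₁ : IntermediateField.adjoin ℚ {ζF} →ₐ[ℚ] Qb :=
    (incl F).comp (IntermediateField.adjoin ℚ {ζF}).val
  let φ₂ : IntermediateField.adjoin ℚ {ζF} →ₐ[ℚ] Qb := (σ : Qb →ₐ[ℚ] Qb).comp φ₁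
  have h : φ₁ = φ₂ := by
    apply IntermediateField.adjoin_algHom_ext
    intro y hy
    rw [Set.mem_singleton_iff] at hy
    subst hy
    exact hσ.symm
  have := congrArg (fun f => f ⟨x, hx⟩) h
  exact this.symm

/-- Elements of `F ⊆ ℚ̄` fixed by all automorphisms fixing `ζ` lie in `ℚ(ζ)`. -/
theorem mem_adjoin_of_fixed' (F : IntermediateField ℚ Qb) (ζF : F) (x : F)
    (hx : ∀ σ : GQ, σ (ζF : Qb) = ζF → σ (x : Qb) = x) :
    x ∈ IntermediateField.adjoin ℚ {ζF} := by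
  have h1 : (x : Qb) ∈ IntermediateField.adjoin ℚ {(ζF : Qb)} := Glue.mem_adjoin_of_fixed _ hx
  have h2 : (IntermediateField.adjoin ℚ {ζF}).map (incl F)
      = IntermediateField.adjoin ℚ {(ζF : Qb)} := by
    rw [IntermediateField.adjoin_map]
    simp
  rw [← h2] at h1
  obtain ⟨k, hk, hkx⟩ := h1
  have : k = x := Subtype.ext hkx
  rwa [← this]

section rel

variable (F : IntermediateField ℚ Qb) [FiniteDimensional ℚ F] [IsGalois ℚ F] [NumberField F]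
  (K : IntermediateField ℚ F)

/-- The stabiliser in `Gal(F/K)` of a prime above `p` is trivial. -/
theorem rel_stabilizer_trivial {p : ℕ} [Fact p.Prime] (b : GQ → ZMod p)
    (hFix : ∀ σ : GQ, σ ∈ F.fixingSubgroup ↔ (cycloChar p σ = 1 ∧ b σ = 0))
    (hsplit : ∀ A : ValuationSubring Qb, A.LiesOverPrime p →
        ∀ σ ∈ A.decompositionSubgroup ℚ, cycloChar p σ = 1 → b σ = 0)
    (ζF : F) (hζ : IsPrimitiveRoot (ζF : Qb) p) (hζK : ζF ∈ K)
    (Λ : Ideal (𝓞 F)) [Λ.IsPrime] (hpΛ : (p : 𝓞 F) ∈ Λ)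
    (σ : F ≃ₐ[K] F) (hσ : σ • Λ = Λ) : σ = 1 := by
  have key : σ.restrictScalars ℚ = 1 := by
    refine Lift.eq_one_of_smul_eq F p (cycloChar p).ker ?_ Λ hpΛ (σ.restrictScalars ℚ) ?_ ?_
    · intro A hA τ hτ hτS
      exact (hFix τ).mpr ⟨MonoidHom.mem_ker.mp hτS, hsplit A hA τ hτ (MonoidHom.mem_ker.mp hτS)⟩
    · exact Glue.restrictScalars_smul_ideal K Λ hσ
    · intro τ hτ
      rw [MonoidHom.mem_ker, Kummer.cycloChar_eq_one_iff hζ]
      rw [hτ ζF]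
      have : σ ζF = ζF := σ.commutes ⟨ζF, hζK⟩
      exact congrArg _ this
  exact Glue.eq_one_of_restrictScalars_eq_one K key

/-- The inertia group in `Gal(F/K)` of every nonzero prime is trivial. -/
theorem rel_inertia_trivial {p : ℕ} [Fact p.Prime] (b : GQ → ZMod p)
    (hFix : ∀ σ : GQ, σ ∈ F.fixingSubgroup ↔ (cycloChar p σ = 1 ∧ b σ = 0))
    (hunr : ∀ ℓ : ℕ, ℓ.Prime → ℓ ≠ p → ∀ A : ValuationSubring Qb,
        A.LiesOverPrime ℓ → ∀ σ ∈ A.inertiaSubgroupIn ℚ, cycloChar p σ = 1 ∧ b σ = 0)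
    (hsplit : ∀ A : ValuationSubring Qb, A.LiesOverPrime p →
        ∀ σ ∈ A.decompositionSubgroup ℚ, cycloChar p σ = 1 → b σ = 0)
    (ζF : F) (hζ : IsPrimitiveRoot (ζF : Qb) p) (hζK : ζF ∈ K)
    (Q : Ideal (𝓞 F)) [Q.IsPrime] (hQ : Q ≠ ⊥)
    (σ : F ≃ₐ[K] F) (hσ : σ ∈ Q.inertia (F ≃ₐ[K] F)) : σ = 1 := by
  obtain ⟨ℓ, hℓ, hℓQ⟩ := Lift.exists_prime_mem F Q hQ
  by_cases hℓp : ℓ = p
  · subst hℓp
    have hstab : σ • Q = Q := by
      have := Ideal.inertia_le_stabilizer Q hσ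
      exact MulAction.mem_stabilizer_iff.mp this
    exact rel_stabilizer_trivial F K b hFix hsplit ζF hζ hζK Q hℓQ σ hstab
  · have key : σ.restrictScalars ℚ = 1 := by
      refine Lift.eq_one_of_mem_inertia F ℓ ?_ Q hℓQ (σ.restrictScalars ℚ) ?_
      · intro A hA τ hτ
        exact (hFix τ).mpr (hunr ℓ hℓ hℓp A hA τ hτ)
      · exact Glue.restrictScalars_mem_inertia K Q hσ
    exact Glue.eq_one_of_restrictScalars_eq_one K key

end rel


/-- Elements of `ℚ̄` fixed by all automorphisms fixing `ζ` come from `ℚ(ζ)` (inside `F`). -/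
theorem exists_of_fixed (F : IntermediateField ℚ Qb) (ζF : F) (y : Qb)
    (hy : ∀ σ : GQ, σ (ζF : Qb) = ζF → σ y = y) :
    ∃ k : IntermediateField.adjoin ℚ {ζF}, ((k : F) : Qb) = y := by
  have h1 : y ∈ IntermediateField.adjoin ℚ {(ζF : Qb)} := Glue.mem_adjoin_of_fixed _ hy
  have h2 : (IntermediateField.adjoin ℚ {ζF}).map (incl F)
      = IntermediateField.adjoin ℚ {(ζF : Qb)} := by
    rw [IntermediateField.adjoin_map]
    simp
  rw [← h2] at h1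
  obtain ⟨k, hk, hkx⟩ := h1
  exact ⟨⟨k, hk⟩, hkx⟩

section core

variable {p : ℕ} [Fact p.Prime]

theorem core (H : KummerVanishing p) (b : GQ → ZMod p)
    (hne : ∃ σ : GQ, cycloChar p σ = 1 ∧ b σ ≠ 0)
    (hunr : ∀ ℓ : ℕ, ℓ.Prime → ℓ ≠ p → ∀ A : ValuationSubring Qb,
        A.LiesOverPrime ℓ → ∀ σ ∈ A.inertiaSubgroupIn ℚ, cycloChar p σ = 1 ∧ b σ = 0)
    (hsplit : ∀ A : ValuationSubring Qb, A.LiesOverPrime p →
        ∀ σ ∈ A.decompositionSubgroup ℚ, cycloChar p σ = 1 → b σ = 0)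
    (F : IntermediateField ℚ Qb) [FiniteDimensional ℚ F] [IsGalois ℚ F] [NumberField F]
    (ζF θF : F)
    (hFix : ∀ σ : GQ, σ ∈ F.fixingSubgroup ↔ (cycloChar p σ = 1 ∧ b σ = 0))
    (hζ : IsPrimitiveRoot (ζF : Qb) p) (hθ0 : θF ≠ 0) (hθint : IsIntegral ℤ θF)
    (hθact : ∀ σ : GQ, cycloChar p σ = 1 → σ (θF : Qb) = (ζF : Qb) ^ (b σ).val * θF)
    (hequiv : ∀ (g : GQ) (n : ℕ), g (ζF : Qb) = (ζF : Qb) ^ n →
      ∃ y : Qb, (∀ h : GQ, cycloChar p h = 1 → h y = y) ∧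
        g ((θF : Qb) ^ p) = ((θF : Qb) ^ p) ^ (n ^ 2) * y ^ p) : False := by
  have hp : p.Prime := Fact.out
  haveI : NeZero p := ⟨hp.ne_zero⟩
  -- the cyclotomic field `K = ℚ(ζ)` inside `F`
  set K : IntermediateField ℚ F := IntermediateField.adjoin ℚ {ζF} with hK
  have hζFK : ζF ∈ K := IntermediateField.mem_adjoin_simple_self ℚ ζF
  have hζF : IsPrimitiveRoot ζF p :=
    IsPrimitiveRoot.of_map_of_injective (f := algebraMap F Qb) hζ (algebraMap F Qb).injective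
  haveI : IsCyclotomicExtension {p} ℚ K := hζF.intermediateField_adjoin_isCyclotomicExtension ℚ
  let ζK : K := ⟨ζF, hζFK⟩
  have hζK : IsPrimitiveRoot ζK p :=
    IsPrimitiveRoot.of_map_of_injective (f := algebraMap K F) hζF (algebraMap K F).injective
  let ζO : 𝓞 K := hζK.toInteger
  have hζO : IsPrimitiveRoot ζO p := hζK.toInteger_isPrimitiveRoot
  have hfixK : ∀ σ : GQ, cycloChar p σ = 1 → ∀ x : K, σ ((x : F) : Qb) = ((x : F) : Qb) := by
    intro σ hσ x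
    exact apply_eq_of_mem_adjoin F ζF σ ((Kummer.cycloChar_eq_one_iff hζ σ).mp hσ) x x.2
  -- `α = θ ^ p` as an integer of `K`
  have hαmem : θF ^ p ∈ K := by
    apply mem_adjoin_of_fixed' F ζF
    intro σ hσ
    have h1 := hθact σ ((Kummer.cycloChar_eq_one_iff hζ σ).mpr hσ)
    have h2 : ((θF ^ p : F) : Qb) = (θF : Qb) ^ p := rfl
    rw [h2, map_pow, h1, mul_pow, ← pow_mul, mul_comm _ p, pow_mul, hζ.pow_eq_one, one_pow,
      one_mul]
  let αK : K := ⟨θF ^ p, hαmem⟩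
  have hαint : IsIntegral ℤ αK := by
    have h1 : IsIntegral ℤ (θF ^ p) := hθint.pow p
    exact (isIntegral_algebraMap_iff (algebraMap K F).injective).mp h1
  let α : 𝓞 K := ⟨αK, hαint⟩
  have hαF : ((α : K) : F) = θF ^ p := rfl
  have hα0 : α ≠ 0 := by
    intro h
    have h1 : (α : K) = 0 := by rw [h]; rfl
    have h2 : θF ^ p = 0 := congrArg (fun x : K => (x : F)) h1
    exact hθ0 ((pow_eq_zero_iff hp.ne_zero).mp h2)
  -- (c)
  have hI : ∀ Q : Ideal (𝓞 F), Q.IsPrime → Q ≠ ⊥ → ∀ σ : F ≃ₐ[K] F,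
      σ ∈ Q.inertia (F ≃ₐ[K] F) → σ = 1 := by
    intro Q hQ hQ0 σ hσ
    exact rel_inertia_trivial F K b hFix hunr hsplit ζF hζ hζFK Q hQ0 σ hσ
  have h1 : ∃ 𝔞 : Ideal (𝓞 K), Ideal.span {α} = 𝔞 ^ p :=
    TrLocal.span_eq_pow_of_inertia_trivial hp α hα0 θF rfl hI
  -- (b)
  have h2 : ∀ (σ : K ≃ₐ[ℚ] K) (n : ℕ), σ (ζO : K) = (ζO : K) ^ n →
      ∃ y : K, σ (α : K) = (α : K) ^ (n ^ 2) * y ^ p := by
    intro σ n hσ
    obtain ⟨g, hg⟩ := Glue.exists_aut_extending F K σ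
    have hgζ : g (ζF : Qb) = (ζF : Qb) ^ n := by
      have h1 := hg ζK
      have h2 : σ ζK = ζK ^ n := hσ
      rw [h2] at h1
      exact h1
    obtain ⟨y, hyfix, hy⟩ := hequiv g n hgζ
    obtain ⟨yK, hyK⟩ := exists_of_fixed F ζF y
      (fun τ hτ => hyfix τ ((Kummer.cycloChar_eq_one_iff hζ τ).mpr hτ))
    refine ⟨yK, ?_⟩
    apply Subtype.ext
    apply Subtype.ext
    have h3 := hg (α : K)
    have h4 : (((α : K) : F) : Qb) = (θF : Qb) ^ p := rfl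
    rw [h4, hy, ← hyK] at h3
    exact h3.symm
  -- (d)
  have h3 : ∀ x : 𝓞 K, (∃ y : K, y ≠ 0 ∧ (x : K) = (α : K) * y ^ p) →
      ∀ m : ℕ, ∃ c : 𝓞 K, x - c ^ p ∈ Ideal.span {ζO - 1} ^ m := by
    rintro x ⟨y, -, hxy⟩ m
    have hprime : Prime (ζO - 1) := hζK.zeta_sub_one_prime'
    haveI : (Ideal.span {ζO - 1}).IsPrime :=
      (Ideal.span_singleton_prime hprime.ne_zero).mpr hprime
    have hlam : Ideal.span {ζO - 1} ≠ ⊥ := by
      simpa using hprime.ne_zero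
    obtain ⟨⟨Λ, hΛprime, hΛover⟩⟩ := (Ideal.span {ζO - 1}).nonempty_primesOver (S := 𝓞 F)
    have hpK : (p : 𝓞 K) ∈ Ideal.span {ζO - 1} :=
      Ideal.mem_span_singleton.mpr hζK.toInteger_sub_one_dvd_prime'
    have hpΛ : (p : 𝓞 F) ∈ Λ := by
      have h1 : (p : 𝓞 K) ∈ Λ.under (𝓞 K) := by
        rw [← hΛover.over]
        exact hpK
      have h2 : algebraMap (𝓞 K) (𝓞 F) (p : 𝓞 K) ∈ Λ := h1
      simpa using h2
    have hD : ∀ σ : F ≃ₐ[K] F, σ • Λ = Λ → σ = 1 := fun σ hσ =>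
      rel_stabilizer_trivial F K b hFix hsplit ζF hζ hζFK Λ hpΛ σ hσ
    refine TrLocal.exists_pow_approx_of_stabilizer_trivial hp (Ideal.span {ζO - 1}) hlam Λ hD x
      (θF * (y : F)) ?_ m
    have h5 : algebraMap K F (x : K) = ((x : K) : F) := rfl
    rw [h5, hxy, mul_pow]
    rfl
  obtain ⟨β, hβ⟩ := H K ζO hζO α hα0 h1 h2 h3
  -- contradiction: `θ = ζ ^ j * β` would be fixed by `ker χ`
  obtain ⟨h0, hh0, hb0⟩ := hne
  have hβQ : (θF : Qb) ^ p = (((β : K) : F) : Qb) ^ p := by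
    have h4 : (((α : K) : F) : Qb) = (θF : Qb) ^ p := rfl
    rw [← h4, hβ]
    rfl
  have hθQ0 : (θF : Qb) ≠ 0 := fun h => hθ0 (Subtype.ext h)
  have hβ0 : (((β : K) : F) : Qb) ≠ 0 := by
    intro h
    rw [h, zero_pow hp.ne_zero] at hβQ
    exact hθQ0 ((pow_eq_zero_iff hp.ne_zero).mp hβQ)
  have hquot : ((θF : Qb) / (((β : K) : F) : Qb)) ^ p = 1 := by
    rw [div_pow, hβQ, div_self (pow_ne_zero p hβ0)]
  obtain ⟨j, -, hj⟩ := hζ.eq_pow_of_pow_eq_one hquot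
  have hθeq : (θF : Qb) = (ζF : Qb) ^ j * (((β : K) : F) : Qb) := by
    rw [hj, div_mul_cancel₀ _ hβ0]
  have hh0θ : h0 (θF : Qb) = (θF : Qb) := by
    rw [hθeq, map_mul, map_pow, hfixK h0 hh0 β, hfixK h0 hh0 ζK]
  have h6 := hθact h0 hh0
  rw [hh0θ] at h6
  have h7 : (ζF : Qb) ^ (b h0).val = 1 := by
    have h8 : (1 : Qb) * (θF : Qb) = (ζF : Qb) ^ (b h0).val * θF := by rw [one_mul]; exact h6
    exact (mul_right_cancel₀ hθQ0 h8).symm
  have h9 : p ∣ (b h0).val := (hζ.pow_eq_one_iff_dvd _).mp h7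
  have h10 : (b h0).val = 0 := Nat.eq_zero_of_dvd_of_lt h9 (ZMod.val_lt _)
  exact hb0 ((ZMod.val_eq_zero _).mp h10)

/-- **Block [T].** The number-field statement `KummerVanishing p` implies the frozen
`ExtCitation.ExtVanishingCts p` (for `3 ≤ p`). -/
theorem extVanishingCts_of_kummerVanishing (h3 : 3 ≤ p) (H : KummerVanishing p) :
    ExtCitation.ExtVanishingCts p := by
  intro V _ _ _ _ C hadm
  by_contra hns
  obtain ⟨b, hb, hopen, hne, hunr, hsplit⟩ :=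
    Cocycle.exists_cocycle_of_not_splits h3 V C hadm hns
  obtain ⟨F, hFfin, hFgal, ζ, θ, hFix, hζ, hζF, hθF, hθ0, hθint, hθact, hequiv⟩ :=
    Kummer.exists_kummer_generator b hb hopen hne
  haveI : NumberField F :=
    { to_charZero := inferInstance, to_finiteDimensional := inferInstance }
  have hθint' : IsIntegral ℤ (⟨θ, hθF⟩ : F) :=
    (isIntegral_algebraMap_iff (algebraMap F Qb).injective).mp hθint
  exact core H b hne hunr hsplit F ⟨ζ, hζF⟩ ⟨θ, hθF⟩ hFix hζ (fun h => hθ0 (congrArg Subtype.val h))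
    hθint' hθact hequiv

end core

end Fermat.Agent.S14Tr
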