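/-
S14, shared block [T], part (T-c) (owner: helper37): lifting inertia and decomposition elements
from a finite Galois subextension `F/ℚ` of `AlgebraicClosure ℚ` to the inertia subgroup
(`ValuationSubring.inertiaSubgroupIn`) and the decomposition subgroup of a valuation subring of
`AlgebraicClosure ℚ`.  Builds on the S13 files `InertiaLift` and `ValSub` (imported, not edited).
-/
import Mathlib
import Fermat.Prelude.Def_FLTPrelim_Ramification
import Fermat.Agent.S13.InertiaLift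
import Fermat.Agent.S13.ValSub

set_option autoImplicit false

open scoped Pointwise

namespace Fermat.Agent.S14Tr.DecompLift

open Fermat.Agent.S13.InertiaLift

/-- The field of algebraic numbers. -/
local notation "Qb" => AlgebraicClosure ℚ
/-- Its Galois group. -/
local notation "GQ" => (AlgebraicClosure ℚ ≃ₐ[ℚ] AlgebraicClosure ℚ)
/-- The ring of all algebraic integers. -/
local notation "Zb" => integralClosure ℤ (AlgebraicClosure ℚ)

attribute [local instance] isAlgClosure_rat isGalois_rat topZb discreteZb continuousSMul_Zb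
  isInvariant_int primeOf_isPrime smulCommClass_fixedRing isInvariant_fixedRing
  compactSpace_fixingSubgroup

/-- **Inertia lift.** An automorphism `τ` of a finite Galois `F/ℚ` acting trivially modulo
`A.nonunits` on the integers of `F` lifts to an element of the inertia subgroup of `A`. -/
theorem exists_lift_mem_inertiaSubgroupIn (A : ValuationSubring (AlgebraicClosure ℚ))
    (F : IntermediateField ℚ (AlgebraicClosure ℚ)) [FiniteDimensional ℚ F] [IsGalois ℚ F]
    (τ : F ≃ₐ[ℚ] F)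
    (hτ : ∀ x : F, IsIntegral ℤ (x : AlgebraicClosure ℚ) →
      ((τ x : F) : AlgebraicClosure ℚ) - (x : AlgebraicClosure ℚ) ∈ A.nonunits) :
    ∃ σ : AlgebraicClosure ℚ ≃ₐ[ℚ] AlgebraicClosure ℚ,
      σ ∈ A.inertiaSubgroupIn ℚ ∧
      ∀ x : F, σ (x : AlgebraicClosure ℚ) = ((τ x : F) : AlgebraicClosure ℚ) := by
  obtain ⟨σ, hσF, hσ⟩ := exists_lift_inertia A F τ hτ
  exact ⟨σ, Fermat.Agent.S13.ValSub.mem_inertiaSubgroupIn_of_integral A σ hσ, hσF⟩

/-- **Decomposition lift.** An automorphism `τ` of a finite Galois `F/ℚ` preserving the prime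
`A.nonunits ∩ 𝓞_F` of the integers of `F` lifts to an element of the decomposition subgroup
of `A`. -/
theorem exists_lift_mem_decompositionSubgroup (A : ValuationSubring (AlgebraicClosure ℚ))
    (F : IntermediateField ℚ (AlgebraicClosure ℚ)) [FiniteDimensional ℚ F] [IsGalois ℚ F]
    (τ : F ≃ₐ[ℚ] F)
    (hτ : ∀ x : F, IsIntegral ℤ (x : AlgebraicClosure ℚ) →
      ((x : AlgebraicClosure ℚ) ∈ A.nonunits ↔
        ((τ x : F) : AlgebraicClosure ℚ) ∈ A.nonunits)) :
    ∃ σ : AlgebraicClosure ℚ ≃ₐ[ℚ] AlgebraicClosure ℚ,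
      σ ∈ A.decompositionSubgroup ℚ ∧
      ∀ x : F, σ (x : AlgebraicClosure ℚ) = ((τ x : F) : AlgebraicClosure ℚ) := by
  -- Step 1: lift `τ` to `σ₀`
  obtain ⟨σ₀, hσ₀⟩ := AlgEquiv.restrictNormalHom_surjective (F := ℚ) (K₁ := F) Qb τ
  have hσ₀F : ∀ x : F, σ₀ (x : Qb) = ((τ x : F) : Qb) := by
    intro x
    rw [← hσ₀]
    exact (AlgEquiv.restrictNormal_commutes σ₀ F x).symm
  -- Step 2: move `σ₀ • Q` back to `Q` by an element of the fixing subgroup
  set Q : Ideal Zb := primeOf A with hQ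
  have hPQ : (σ₀ • Q).under (fixedRing F) = Q.under (fixedRing F) := by
    ext a
    show (a : Zb) ∈ σ₀ • Q ↔ (a : Zb) ∈ Q
    rw [Ideal.mem_pointwise_smul_iff_inv_smul_mem, mem_primeOf, mem_primeOf, coe_smul_Zb]
    have haF := coe_mem_of_mem_fixedRing F a
    have hy1 : σ₀ ((τ.symm ⟨_, haF⟩ : F) : Qb) = ((a : Zb) : Qb) := by
      rw [hσ₀F, AlgEquiv.apply_symm_apply]
    have hy2 : σ₀⁻¹ ((a : Zb) : Qb) = ((τ.symm ⟨_, haF⟩ : F) : Qb) := by
      have h0 := congrArg (σ₀⁻¹ : GQ) hy1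
      exact h0.symm.trans (σ₀.symm_apply_apply _)
    have hyint : IsIntegral ℤ ((τ.symm ⟨_, haF⟩ : F) : Qb) := by
      rw [← hy2]
      exact (σ₀⁻¹ • (a : Zb)).2
    have h1 := hτ _ hyint
    rw [AlgEquiv.apply_symm_apply] at h1
    rw [hy2]
    exact h1
  obtain ⟨ρ, hρ⟩ := Algebra.IsInvariant.exists_smul_of_under_eq_of_profinite
    (A := fixedRing F) (B := Zb) (G := F.fixingSubgroup) (σ₀ • Q) Q hPQ
  set σ₁ : GQ := (ρ : GQ) * σ₀ with hσ₁
  have hσ₁Q : σ₁ • Q = Q := by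
    rw [hσ₁, mul_smul]
    exact hρ.symm
  have hσ₁F : ∀ x : F, σ₁ (x : Qb) = ((τ x : F) : Qb) := by
    intro x
    rw [hσ₁, AlgEquiv.mul_apply, hσ₀F]
    exact ρ.2 ⟨_, (τ x).2⟩
  -- Step 3: `σ₁` stabilises `A`
  have hA : σ₁ • A = A := by
    apply Fermat.Agent.S13.ValSub.smul_eq_of_integral_nonunits A A σ₁
    intro b hb
    have h1 : (⟨b, hb⟩ : Zb) ∈ Q ↔ σ₁ • (⟨b, hb⟩ : Zb) ∈ σ₁ • Q :=
      Ideal.smul_mem_pointwise_smul_iff.symm
    rw [hσ₁Q, mem_primeOf, mem_primeOf, coe_smul_Zb] at h1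
    exact h1
  exact ⟨σ₁, MulAction.mem_stabilizer_iff.mpr hA, hσ₁F⟩

/-- Corollary of the inertia lift: if the inertia subgroup of `A` fixes `F` pointwise, then an
automorphism of `F` acting trivially modulo `A.nonunits` on the integers of `F` is trivial. -/
theorem eq_of_inertia_fixes (A : ValuationSubring (AlgebraicClosure ℚ))
    (F : IntermediateField ℚ (AlgebraicClosure ℚ)) [FiniteDimensional ℚ F] [IsGalois ℚ F]
    (hI : ∀ σ ∈ A.inertiaSubgroupIn ℚ, ∀ x : F,
      σ (x : AlgebraicClosure ℚ) = (x : AlgebraicClosure ℚ))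
    (τ : F ≃ₐ[ℚ] F)
    (hτ : ∀ x : F, IsIntegral ℤ (x : AlgebraicClosure ℚ) →
      ((τ x : F) : AlgebraicClosure ℚ) - (x : AlgebraicClosure ℚ) ∈ A.nonunits)
    (x : F) : τ x = x := by
  obtain ⟨σ, hσ, hσF⟩ := exists_lift_mem_inertiaSubgroupIn A F τ hτ
  apply Subtype.ext
  rw [← hσF x]
  exact hI σ hσ x

/-- Corollary of the decomposition lift: if every element of the decomposition subgroup of `A`
satisfying a property `P` fixes `F` pointwise, and every lift of `τ` satisfies `P`, then an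
automorphism `τ` of `F` preserving the prime `A.nonunits ∩ 𝓞_F` is trivial. -/
theorem eq_of_decomposition_fixes (A : ValuationSubring (AlgebraicClosure ℚ))
    (F : IntermediateField ℚ (AlgebraicClosure ℚ)) [FiniteDimensional ℚ F] [IsGalois ℚ F]
    (P : (AlgebraicClosure ℚ ≃ₐ[ℚ] AlgebraicClosure ℚ) → Prop)
    (hD : ∀ σ ∈ A.decompositionSubgroup ℚ, P σ → ∀ x : F,
      σ (x : AlgebraicClosure ℚ) = (x : AlgebraicClosure ℚ))
    (τ : F ≃ₐ[ℚ] F)
    (hP : ∀ σ : AlgebraicClosure ℚ ≃ₐ[ℚ] AlgebraicClosure ℚ,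
      (∀ x : F, σ (x : AlgebraicClosure ℚ) = ((τ x : F) : AlgebraicClosure ℚ)) → P σ)
    (hτ : ∀ x : F, IsIntegral ℤ (x : AlgebraicClosure ℚ) →
      ((x : AlgebraicClosure ℚ) ∈ A.nonunits ↔
        ((τ x : F) : AlgebraicClosure ℚ) ∈ A.nonunits))
    (x : F) : τ x = x := by
  obtain ⟨σ, hσ, hσF⟩ := exists_lift_mem_decompositionSubgroup A F τ hτ
  apply Subtype.ext
  rw [← hσF x]
  exact hD σ hσ (hP σ hσF) x

end Fermat.Agent.S14Tr.DecompLift
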