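import Mathlib

/-!
# S14 shared block [T-d]: abstract Dedekind-domain core (helper33)

Raw forms (`e = 1` as `v B ≤ P ∧ ¬ v B ≤ P ^ 2`, `f = 1` as surjectivity of `A → B ⧸ P`):

* `exists_sub_mem_pow`   : `B = A + P ^ m`.
* `mem_pow_of_algebraMap_mem_pow` : `P ^ m ∩ A ⊆ v ^ m`.
* `exists_sub_pow_mem_pow` : an `n`-th power in `B` lying in `A` is an `n`-th power mod `v ^ m`.
* `exists_pow_eq_span`   : unramified + `θ ^ n = α` implies `(α) = 𝔞 ^ n`.

Index forms (`P.ramificationIdx A = 1`, `P.inertiaDeg A = 1`, and the primed variants):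
`exists_sub_mem_pow_of_idx`, `comap_pow_eq_pow_of_idx`, `exists_sub_pow_mem_pow_of_idx`,
`exists_pow_eq_span_of_idx`, `exists_pow_eq_span_of_idx'`.
-/

set_option autoImplicit false

namespace Fermat.Agent.S14Tr.TrDed

open Ideal UniqueFactorizationMonoid

section Approx

variable {A B : Type*} [CommRing A] [CommRing B] [IsDedekindDomain B] [Algebra A B]

/-- If `π ∈ P \ P ^ 2` then `π ^ m ∉ P ^ (m + 1)`. -/
theorem pow_not_mem_pow_succ (P : Ideal B) [P.IsPrime] (hP : P ≠ ⊥) {π : B} (hπ : π ∈ P)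
    (hπ2 : π ∉ P ^ 2) (m : ℕ) : π ^ m ∉ P ^ (m + 1) := by
  have hprime : Prime P := Ideal.prime_of_isPrime hP inferInstance
  have h1 : emultiplicity P (Ideal.span {π}) = 1 := by
    have : emultiplicity P (Ideal.span {π}) = ((1 : ℕ) : ℕ∞) := by
      rw [emultiplicity_eq_coe]
      constructor
      · rw [pow_one, Ideal.dvd_iff_le]
        exact (Ideal.span_singleton_le_iff_mem _).mpr hπ
      · rw [Ideal.dvd_iff_le]
        intro h
        exact hπ2 ((Ideal.span_singleton_le_iff_mem _).mp h)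
    simpa using this
  intro h
  have hdvd : P ^ (m + 1) ∣ Ideal.span {π} ^ m := by
    rw [Ideal.dvd_iff_le, Ideal.span_singleton_pow]
    exact (Ideal.span_singleton_le_iff_mem _).mpr h
  rw [pow_dvd_iff_le_emultiplicity, emultiplicity_pow hprime, h1, mul_one] at hdvd
  have : ((m + 1 : ℕ) : ℕ∞) ≤ (m : ℕ∞) := hdvd
  rw [Nat.cast_le] at this
  omega

/-- **(d1)** `B = A + P ^ m` when `A → B ⧸ P` is onto (`f = 1`) and `v B ⊄ P ^ 2` (`e = 1`). -/
theorem exists_sub_mem_pow (v : Ideal A) (P : Ideal B) [P.IsPrime] (hP : P ≠ ⊥)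
    (hvP : Ideal.map (algebraMap A B) v ≤ P)
    (he : ¬ Ideal.map (algebraMap A B) v ≤ P ^ 2)
    (hf : ∀ b : B, ∃ c : A, b - algebraMap A B c ∈ P)
    (b : B) (m : ℕ) : ∃ c : A, b - algebraMap A B c ∈ P ^ m := by
  induction m with
  | zero => exact ⟨0, by simp⟩
  | succ m ih =>
    obtain ⟨c, hc⟩ := ih
    obtain ⟨π, hπv, hπ⟩ : ∃ π ∈ v, algebraMap A B π ∉ P ^ 2 := by
      by_contra h
      push Not at h
      exact he (Ideal.map_le_iff_le_comap.mpr fun x hx => h x hx)
    have hπP : algebraMap A B π ∈ P := hvP (Ideal.mem_map_of_mem _ hπv)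
    have hsup : Ideal.span {algebraMap A B π ^ m} ⊔ P ^ (m + 1) = P ^ m := by
      apply Ideal.eq_prime_pow_of_succ_lt_of_le hP
      · refine lt_of_le_of_ne le_sup_right ?_
        intro h
        have hmem : algebraMap A B π ^ m ∈ P ^ (m + 1) := by
          rw [h]; exact Ideal.mem_sup_left (Ideal.subset_span rfl)
        exact pow_not_mem_pow_succ P hP hπP hπ m hmem
      · exact sup_le ((Ideal.span_singleton_le_iff_mem _).mpr (Ideal.pow_mem_pow hπP m))
          (Ideal.pow_le_pow_right (Nat.le_succ m))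
    rw [← hsup] at hc
    obtain ⟨y₁, hy₁, y₂, hy₂, hy⟩ := Submodule.mem_sup.mp hc
    obtain ⟨z, rfl⟩ := Ideal.mem_span_singleton'.mp hy₁
    obtain ⟨c₁, hc₁⟩ := hf z
    refine ⟨c + c₁ * π ^ m, ?_⟩
    have hkey : b - algebraMap A B (c + c₁ * π ^ m)
        = (z - algebraMap A B c₁) * algebraMap A B π ^ m + y₂ := by
      have : b = z * algebraMap A B π ^ m + y₂ + algebraMap A B c := by
        rw [hy]; ring
      rw [this, map_add, map_mul, map_pow]; ring
    rw [hkey]
    refine Ideal.add_mem _ ?_ hy₂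
    rw [pow_succ']
    exact Ideal.mul_mem_mul hc₁ (Ideal.pow_mem_pow hπP m)

variable [IsDedekindDomain A]

/-- **(d2)** `P ^ m ∩ A ⊆ v ^ m` when `e(P|v) = 1` (raw form). -/
theorem mem_pow_of_algebraMap_mem_pow (v : Ideal A) [v.IsPrime] (P : Ideal B) [P.IsPrime]
    (hP : P ≠ ⊥) (hvP : Ideal.map (algebraMap A B) v ≤ P)
    (he : ¬ Ideal.map (algebraMap A B) v ≤ P ^ 2)
    {a : A} {m : ℕ} (ha : algebraMap A B a ∈ P ^ m) : a ∈ v ^ m := by
  have hv0 : v ≠ ⊥ := by
    rintro rfl
    exact he (by simp)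
  have hvprime : Prime v := Ideal.prime_of_isPrime hv0 inferInstance
  have hPprime : Prime P := Ideal.prime_of_isPrime hP inferInstance
  have h1 : emultiplicity P (Ideal.map (algebraMap A B) v) = 1 := by
    have : emultiplicity P (Ideal.map (algebraMap A B) v) = ((1 : ℕ) : ℕ∞) := by
      rw [emultiplicity_eq_coe]
      refine ⟨?_, ?_⟩
      · rw [pow_one, Ideal.dvd_iff_le]; exact hvP
      · rw [Ideal.dvd_iff_le]; exact he
    simpa using this
  set J : Ideal A := Ideal.comap (algebraMap A B) (P ^ m) with hJ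
  have hvJ : v ^ m ≤ J := by
    rw [hJ, ← Ideal.map_le_iff_le_comap, Ideal.map_pow]
    exact Ideal.pow_right_mono hvP m
  have hdvd : J ∣ v ^ m := Ideal.dvd_iff_le.mpr hvJ
  obtain ⟨k, hk, hassoc⟩ := (dvd_prime_pow hvprime m).mp hdvd
  have hJk : J = v ^ k := associated_iff_eq.mp hassoc
  have hmap : Ideal.map (algebraMap A B) v ^ k ≤ P ^ m := by
    rw [← Ideal.map_pow, ← hJk, hJ]
    exact Ideal.map_comap_le
  have hle : (m : ℕ∞) ≤ (k : ℕ∞) := by
    have := (pow_dvd_iff_le_emultiplicity).mp (Ideal.dvd_iff_le.mpr hmap)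
    rwa [emultiplicity_pow hPprime, h1, mul_one] at this
  rw [Nat.cast_le] at hle
  have hkm : k = m := le_antisymm hk hle
  have : a ∈ J := ha
  rwa [hJk, hkm] at this

/-- **(d3)** If `x ∈ A` becomes a `p`-th power `θ ^ p` in `B`, and some prime `P` of `B` over `v`
has `e = f = 1` (raw form), then `x` is a `p`-th power modulo every power of `v`. -/
theorem exists_sub_pow_mem_pow (v : Ideal A) [v.IsPrime] (P : Ideal B) [P.IsPrime] (hP : P ≠ ⊥)
    (hvP : Ideal.map (algebraMap A B) v ≤ P)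
    (he : ¬ Ideal.map (algebraMap A B) v ≤ P ^ 2)
    (hf : ∀ b : B, ∃ c : A, b - algebraMap A B c ∈ P)
    (n : ℕ) (x : A) (θ : B) (hθ : θ ^ n = algebraMap A B x) (m : ℕ) :
    ∃ c : A, x - c ^ n ∈ v ^ m := by
  obtain ⟨c, hc⟩ := exists_sub_mem_pow v P hP hvP he hf θ m
  refine ⟨c, mem_pow_of_algebraMap_mem_pow v P hP hvP he ?_⟩
  rw [map_sub, map_pow, ← hθ]
  exact Ideal.mem_of_dvd _ (sub_dvd_pow_sub_pow θ (algebraMap A B c) n) hc

end Approx

section Unram

variable {A B : Type*} [CommRing A] [IsDedekindDomain A] [CommRing B] [IsDedekindDomain B]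
  [Algebra A B]

/-- Divisibility of the `v`-adic count of `(α)` by `n`, when `α = θ ^ n` in `B` and some prime
`P` of `B` over `v` is unramified (raw form `v B ≤ P`, `v B ⊄ P ^ 2`). -/
theorem dvd_count_of_unramified (hinj : Function.Injective (algebraMap A B))
    (n : ℕ) (hn : n ≠ 0) (α : A) (hα : α ≠ 0) (θ : B) (hθ : θ ^ n = algebraMap A B α)
    (v : Ideal A) [v.IsMaximal] (P : Ideal B) [P.IsPrime] (hP : P ≠ ⊥)
    (hvP : Ideal.map (algebraMap A B) v ≤ P)
    (he : ¬ Ideal.map (algebraMap A B) v ≤ P ^ 2) :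
    n ∣ Multiset.count v (normalizedFactors (Ideal.span {α})) := by
  classical
  have hPprime : Prime P := Ideal.prime_of_isPrime hP inferInstance
  have hI0 : Ideal.span {α} ≠ (⊥ : Ideal A) := by
    rwa [Ne, Ideal.span_singleton_eq_bot]
  obtain ⟨Q, hvQ, hIQ⟩ := Ideal.eq_prime_pow_mul_coprime hI0 v
  set j := Multiset.count v (normalizedFactors (Ideal.span {α})) with hj
  have h1 : emultiplicity P (Ideal.map (algebraMap A B) v) = 1 := by
    have : emultiplicity P (Ideal.map (algebraMap A B) v) = ((1 : ℕ) : ℕ∞) := by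
      rw [emultiplicity_eq_coe]
      refine ⟨?_, ?_⟩
      · rw [pow_one, Ideal.dvd_iff_le]; exact hvP
      · rw [Ideal.dvd_iff_le]; exact he
    simpa using this
  have h0 : emultiplicity P (Ideal.map (algebraMap A B) Q) = 0 := by
    rw [emultiplicity_eq_zero, Ideal.dvd_iff_le]
    intro hQP
    have htop : Ideal.map (algebraMap A B) v ⊔ Ideal.map (algebraMap A B) Q = ⊤ := by
      rw [← Ideal.map_sup, hvQ, Ideal.map_top]
    have : (⊤ : Ideal B) ≤ P := htop ▸ sup_le hvP hQP
    exact (Ideal.IsPrime.ne_top inferInstance) (top_le_iff.mp this)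
  have hα' : algebraMap A B α ≠ 0 := by
    rwa [Ne, map_eq_zero_iff _ hinj]
  have hθ0 : θ ≠ 0 := by
    rintro rfl
    rw [zero_pow hn] at hθ
    exact hα' hθ.symm
  have hmapI : Ideal.span {algebraMap A B α}
      = Ideal.map (algebraMap A B) v ^ j * Ideal.map (algebraMap A B) Q := by
    rw [← Ideal.map_pow, ← Ideal.map_mul, ← hIQ, Ideal.map_span, Set.image_singleton]
  have hmul : emultiplicity P (Ideal.span {algebraMap A B α}) = (j : ℕ∞) := by
    rw [hmapI, emultiplicity_mul hPprime, emultiplicity_pow hPprime, h1, h0, mul_one, add_zero]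
  have hpow : emultiplicity P (Ideal.span {algebraMap A B α})
      = (n : ℕ∞) * emultiplicity P (Ideal.span {θ}) := by
    rw [← hθ, ← Ideal.span_singleton_pow, emultiplicity_pow hPprime]
  have hθI : Ideal.span {θ} ≠ (0 : Ideal B) := by
    rw [Ideal.zero_eq_bot, Ne, Ideal.span_singleton_eq_bot]
    exact hθ0
  have hfin : FiniteMultiplicity P (Ideal.span {θ}) :=
    FiniteMultiplicity.of_not_isUnit hPprime.not_isUnit hθI
  obtain ⟨k, hk⟩ : ∃ k : ℕ, emultiplicity P (Ideal.span {θ}) = (k : ℕ∞) :=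
    ⟨_, hfin.emultiplicity_eq_multiplicity⟩
  rw [hmul, hk] at hpow
  have : j = n * k := by exact_mod_cast hpow
  exact ⟨k, this⟩

/-- **(c1), raw form.** If `α = θ ^ n` in `B` and every nonzero prime of `A` has an unramified
prime of `B` above it (raw form), then `(α)` is the `n`-th power of an ideal of `A`. -/
theorem exists_pow_eq_span (hinj : Function.Injective (algebraMap A B))
    (n : ℕ) (α : A) (hα : α ≠ 0) (θ : B) (hθ : θ ^ n = algebraMap A B α)
    (hunr : ∀ v : Ideal A, v.IsPrime → v ≠ ⊥ → ∃ P : Ideal B, P.IsPrime ∧ P ≠ ⊥ ∧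
      Ideal.map (algebraMap A B) v ≤ P ∧ ¬ Ideal.map (algebraMap A B) v ≤ P ^ 2) :
    ∃ 𝔞 : Ideal A, Ideal.span {α} = 𝔞 ^ n := by
  classical
  rcases Nat.eq_zero_or_pos n with hn | hn
  · subst hn
    refine ⟨⊤, ?_⟩
    have h1 : α = 1 := by
      apply hinj
      rw [map_one, ← hθ, pow_zero]
    rw [h1, pow_zero, Ideal.span_singleton_one, Ideal.one_eq_top]
  have hI0 : Ideal.span {α} ≠ (⊥ : Ideal A) := by
    rwa [Ne, Ideal.span_singleton_eq_bot]
  set s := normalizedFactors (Ideal.span {α}) with hs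
  have hdiv : ∀ v ∈ s.toFinset, n ∣ Multiset.count v s := by
    intro v hv
    rw [Multiset.mem_toFinset] at hv
    have hvprime : Prime v := prime_of_normalized_factor v hv
    have hv0 : v ≠ ⊥ := hvprime.ne_zero
    have hvP : v.IsPrime := Ideal.isPrime_of_prime hvprime
    have hvmax : v.IsMaximal := hvP.isMaximal hv0
    obtain ⟨P, hPp, hP0, hvPle, he⟩ := hunr v hvP hv0
    exact dvd_count_of_unramified hinj n hn.ne' α hα θ hθ v P hP0 hvPle he
  refine ⟨∏ v ∈ s.toFinset, v ^ (Multiset.count v s / n), ?_⟩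
  rw [← Finset.prod_pow]
  have h1 : ∏ v ∈ s.toFinset, (v ^ (Multiset.count v s / n)) ^ n
      = ∏ v ∈ s.toFinset, v ^ Multiset.count v s := by
    refine Finset.prod_congr rfl fun v hv => ?_
    rw [← pow_mul, Nat.div_mul_cancel (hdiv v hv)]
  rw [h1, ← Finset.prod_multiset_count]
  exact (associated_iff_eq.mp (prod_normalizedFactors hI0)).symm

end Unram

/-! ## Bridges from the ramification index / inertia degree to the raw forms -/

section Bridge

variable {A B : Type*} [CommRing A] [CommRing B] [Algebra A B]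

/-- `P.ramificationIdx A = 1` (new API) gives the raw form of `e = 1`. -/
theorem map_le_and_not_map_le_sq [IsDedekindDomain B] (v : Ideal A) (P : Ideal B) [P.IsPrime]
    [P.LiesOver v] (hv : Ideal.map (algebraMap A B) v ≠ ⊥) (he : P.ramificationIdx A = 1) :
    Ideal.map (algebraMap A B) v ≤ P ∧ ¬ Ideal.map (algebraMap A B) v ≤ P ^ 2 := by
  have hle : Ideal.map (algebraMap A B) v ≤ P := Ideal.map_le_of_le_comap (P.over_def v).le
  refine ⟨hle, fun h2 => ?_⟩
  have hP0 : P ≠ ⊥ := ne_bot_of_le_ne_bot hv hle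
  have hPprime : Prime P := Ideal.prime_of_isPrime hP0 inferInstance
  have hmult := Ideal.IsDedekindDomain.ramificationIdx_eq_multiplicity v P hv
  rw [he] at hmult
  have hfin : FiniteMultiplicity P (Ideal.map (algebraMap A B) v) :=
    FiniteMultiplicity.of_not_isUnit hPprime.not_isUnit hv
  have h1 : emultiplicity P (Ideal.map (algebraMap A B) v) = 1 := by
    rw [hfin.emultiplicity_eq_multiplicity, ← hmult]; simp
  have h2' : P ^ 2 ∣ Ideal.map (algebraMap A B) v := Ideal.dvd_iff_le.mpr h2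
  rw [pow_dvd_iff_le_emultiplicity, h1] at h2'
  exact absurd h2' (by norm_num)

/-- `v.ramificationIdx' P = 1` (old API) gives the raw form of `e = 1`. -/
theorem map_le_and_not_map_le_sq' (v : Ideal A) (P : Ideal B)
    (he : v.ramificationIdx' P = 1) :
    Ideal.map (algebraMap A B) v ≤ P ∧ ¬ Ideal.map (algebraMap A B) v ≤ P ^ 2 := by
  constructor
  · have := Ideal.le_pow_of_le_ramificationIdx' (p := v) (P := P) (n := 1) he.ge
    simpa using this
  · intro h2
    have hv : Ideal.map (algebraMap A B) v ≤ P := by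
      have := Ideal.le_pow_of_le_ramificationIdx' (p := v) (P := P) (n := 1) he.ge
      simpa using this
    by_cases hbdd : ∃ N, ∀ k, Ideal.map (algebraMap A B) v ≤ P ^ k → k ≤ N
    · classical
      rw [Ideal.ramificationIdx'_eq_find hbdd] at he
      have := Nat.find_spec hbdd 2 h2
      omega
    · have h0 : v.ramificationIdx' P = 0 := by
        apply Ideal.ramificationIdx'_eq_zero
        intro N
        by_contra hcon
        push Not at hcon
        exact hbdd ⟨N, fun k hk => hcon k hk⟩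
      omega

/-- `P.inertiaDeg A = 1` (new API) gives the raw form of `f = 1`. -/
theorem exists_sub_algebraMap_mem (v : Ideal A) [v.IsMaximal] (P : Ideal B) [P.IsMaximal]
    [P.LiesOver v] (hf : P.inertiaDeg A = 1) (b : B) : ∃ c : A, b - algebraMap A B c ∈ P := by
  rw [Ideal.inertiaDeg_eq_of_isMaximal v P] at hf
  let : Field (A ⧸ v) := Ideal.Quotient.field v
  let : Field (B ⧸ P) := Ideal.Quotient.field P
  have hbij : Function.Bijective (algebraMap (A ⧸ v) (B ⧸ P)) :=
    Algebra.finrank_eq_one_iff_bijective_algebraMap.mp hf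
  obtain ⟨c', hc'⟩ := hbij.2 (Ideal.Quotient.mk P b)
  obtain ⟨c, rfl⟩ := Ideal.Quotient.mk_surjective c'
  refine ⟨c, ?_⟩
  rw [← Ideal.Quotient.eq, ← hc']
  rfl

end Bridge

/-! ## Index forms of (d1), (d2), (d3), (c1) -/

section Idx

variable {A B : Type*} [CommRing A] [IsDedekindDomain A] [CommRing B] [IsDedekindDomain B]
  [Algebra A B]

/-- **(d1)** `B = A + P ^ m` when `e(P|v) = f(P|v) = 1`. -/
theorem exists_sub_mem_pow_of_idx (hinj : Function.Injective (algebraMap A B))
    (v : Ideal A) [v.IsPrime] (hv : v ≠ ⊥) (P : Ideal B) [P.IsPrime] [P.LiesOver v]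
    (he : P.ramificationIdx A = 1) (hf : P.inertiaDeg A = 1) (b : B) (m : ℕ) :
    ∃ c : A, b - algebraMap A B c ∈ P ^ m := by
  have hvB : Ideal.map (algebraMap A B) v ≠ ⊥ := by
    rwa [Ne, Ideal.map_eq_bot_iff_of_injective hinj]
  obtain ⟨h1, h2⟩ := map_le_and_not_map_le_sq v P hvB he
  have hP0 : P ≠ ⊥ := ne_bot_of_le_ne_bot hvB h1
  have : v.IsMaximal := Ideal.IsPrime.isMaximal inferInstance hv
  have : P.IsMaximal := Ideal.IsPrime.isMaximal inferInstance hP0
  exact exists_sub_mem_pow v P hP0 h1 h2 (exists_sub_algebraMap_mem v P hf) b m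

/-- **(d2)** `P ^ m ∩ A = v ^ m` when `e(P|v) = 1`. -/
theorem comap_pow_eq_pow_of_idx (hinj : Function.Injective (algebraMap A B))
    (v : Ideal A) [v.IsPrime] (hv : v ≠ ⊥) (P : Ideal B) [P.IsPrime] [P.LiesOver v]
    (he : P.ramificationIdx A = 1) (m : ℕ) :
    Ideal.comap (algebraMap A B) (P ^ m) = v ^ m := by
  have hvB : Ideal.map (algebraMap A B) v ≠ ⊥ := by
    rwa [Ne, Ideal.map_eq_bot_iff_of_injective hinj]
  obtain ⟨h1, h2⟩ := map_le_and_not_map_le_sq v P hvB he
  have hP0 : P ≠ ⊥ := ne_bot_of_le_ne_bot hvB h1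
  refine le_antisymm (fun a ha => mem_pow_of_algebraMap_mem_pow v P hP0 h1 h2 ha) ?_
  rw [← Ideal.map_le_iff_le_comap, Ideal.map_pow]
  exact Ideal.pow_right_mono h1 m

/-- **(d3)** If `x ∈ A` becomes an `n`-th power `θ ^ n` in `B` and some prime `P` of `B` over
`v` has `e = f = 1`, then `x` is an `n`-th power modulo every power of `v`. -/
theorem exists_sub_pow_mem_pow_of_idx (hinj : Function.Injective (algebraMap A B))
    (v : Ideal A) [v.IsPrime] (hv : v ≠ ⊥) (P : Ideal B) [P.IsPrime] [P.LiesOver v]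
    (he : P.ramificationIdx A = 1) (hf : P.inertiaDeg A = 1)
    (n : ℕ) (x : A) (θ : B) (hθ : θ ^ n = algebraMap A B x) (m : ℕ) :
    ∃ c : A, x - c ^ n ∈ v ^ m := by
  have hvB : Ideal.map (algebraMap A B) v ≠ ⊥ := by
    rwa [Ne, Ideal.map_eq_bot_iff_of_injective hinj]
  obtain ⟨h1, h2⟩ := map_le_and_not_map_le_sq v P hvB he
  have hP0 : P ≠ ⊥ := ne_bot_of_le_ne_bot hvB h1
  have : v.IsMaximal := Ideal.IsPrime.isMaximal inferInstance hv
  have : P.IsMaximal := Ideal.IsPrime.isMaximal inferInstance hP0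
  exact exists_sub_pow_mem_pow v P hP0 h1 h2 (exists_sub_algebraMap_mem v P hf) n x θ hθ m

/-- **(c1)** If `α = θ ^ n` in `B`, `B` is integral over `A`, and every nonzero prime of `B`
is unramified over `A` (`P.ramificationIdx A = 1`), then `(α) = 𝔞 ^ n` for an ideal `𝔞`. -/
theorem exists_pow_eq_span_of_idx [Algebra.IsIntegral A B]
    (hinj : Function.Injective (algebraMap A B))
    (n : ℕ) (α : A) (hα : α ≠ 0) (θ : B) (hθ : θ ^ n = algebraMap A B α)
    (hunr : ∀ P : Ideal B, P.IsPrime → P ≠ ⊥ → P.ramificationIdx A = 1) :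
    ∃ 𝔞 : Ideal A, Ideal.span {α} = 𝔞 ^ n := by
  refine exists_pow_eq_span hinj n α hα θ hθ fun v hvp hv0 => ?_
  have := hvp
  obtain ⟨P, -, hPp, hPv⟩ := Ideal.exists_ideal_over_prime_of_isIntegral v (⊥ : Ideal B)
    (by
      intro a ha
      have : algebraMap A B a = 0 := by simpa using ha
      rw [(map_eq_zero_iff _ hinj).mp this]
      exact zero_mem _)
  have := hPp
  have : P.LiesOver v := ⟨hPv.symm⟩
  have hvB : Ideal.map (algebraMap A B) v ≠ ⊥ := by
    rwa [Ne, Ideal.map_eq_bot_iff_of_injective hinj]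
  have hle : Ideal.map (algebraMap A B) v ≤ P := Ideal.map_le_of_le_comap hPv.ge
  have hP0 : P ≠ ⊥ := ne_bot_of_le_ne_bot hvB hle
  obtain ⟨h1, h2⟩ := map_le_and_not_map_le_sq v P hvB (hunr P hPp hP0)
  exact ⟨P, hPp, hP0, h1, h2⟩

/-- **(c1)**, old-API form of the hypothesis: `(P.under A).ramificationIdx' P = 1`. -/
theorem exists_pow_eq_span_of_idx' [Algebra.IsIntegral A B]
    (hinj : Function.Injective (algebraMap A B))
    (n : ℕ) (α : A) (hα : α ≠ 0) (θ : B) (hθ : θ ^ n = algebraMap A B α)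
    (hunr : ∀ P : Ideal B, P.IsPrime → P ≠ ⊥ → (P.under A).ramificationIdx' P = 1) :
    ∃ 𝔞 : Ideal A, Ideal.span {α} = 𝔞 ^ n := by
  refine exists_pow_eq_span hinj n α hα θ hθ fun v hvp hv0 => ?_
  have := hvp
  obtain ⟨P, -, hPp, hPv⟩ := Ideal.exists_ideal_over_prime_of_isIntegral v (⊥ : Ideal B)
    (by
      intro a ha
      have : algebraMap A B a = 0 := by simpa using ha
      rw [(map_eq_zero_iff _ hinj).mp this]
      exact zero_mem _)
  have hvB : Ideal.map (algebraMap A B) v ≠ ⊥ := by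
    rwa [Ne, Ideal.map_eq_bot_iff_of_injective hinj]
  have hle : Ideal.map (algebraMap A B) v ≤ P := Ideal.map_le_of_le_comap hPv.ge
  have hP0 : P ≠ ⊥ := ne_bot_of_le_ne_bot hvB hle
  have hu := hunr P hPp hP0
  have hPv' : P.under A = v := hPv
  rw [hPv'] at hu
  obtain ⟨h1, h2⟩ := map_le_and_not_map_le_sq' v P hu
  exact ⟨P, hPp, hP0, h1, h2⟩

end Idx

end Fermat.Agent.S14Tr.TrDed
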