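import Mathlib
import Fermat.Agent.S14.TrCocycle
import Fermat.Agent.S13.MinkGlue
import Fermat.Agent.S13.ValSub

/-!
# S14, block [T], part (T-b), spare variant: the Kummer generator attached to the cocycle

Owner: helper64 (spare hedge of (T-b)).  Given a function `b` on the absolute Galois group of
`ℚ` satisfying the cocycle identity `b (σ τ) = χ(τ) b(σ) + b(τ)` (`χ` the mod-`p` cyclotomic
character), with open kernel `{χ = 1 ∧ b = 0}` and `b ≠ 0` on `ker χ`, and a primitive `p`-th root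
of unity `ζ`, we construct (Lagrange resolvent) a nonzero algebraic number `θ` with
`h θ = ζ ^ b(h) * θ` for all `h ∈ ker χ`, and derive:

* `θ ^ p` is fixed by `ker χ`, `θ` is not;
* for `g` with `g ζ = ζ ^ n`, the quotient `g θ / θ ^ (n ^ 2)` is fixed by `ker χ`
  (so `g (θ ^ p) = (θ ^ p) ^ (n ^ 2) * y ^ p` with `y` fixed by `ker χ`).
-/

set_option autoImplicit false

namespace Fermat.Agent.S14Tr.Resolvent

open ExtCitation Fermat.Agent.S14Tr.Cocycle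

/-- The field of algebraic numbers. -/
local notation "Qb" => AlgebraicClosure ℚ

theorem isGalois_rat : IsGalois ℚ (AlgebraicClosure ℚ) := by
  have h : (DivisionRing.toRatAlgebra : Algebra ℚ (AlgebraicClosure ℚ))
      = AlgebraicClosure.instAlgebra ℚ := Subsingleton.elim _ _
  have : IsAlgClosure ℚ (AlgebraicClosure ℚ) := by
    rw [h]; infer_instance
  infer_instance

section

variable {p : ℕ} [Fact p.Prime]

/-- The defining property of the cyclotomic character on a primitive root. -/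
theorem cycloChar_spec {ζ : Qb} (hζ : IsPrimitiveRoot ζ p) (g : GQ) :
    g ζ = ζ ^ ((cycloChar p g : (ZMod p)ˣ) : ZMod p).val := by
  have : NeZero p := ⟨(Fact.out : p.Prime).ne_zero⟩
  have h1 := modularCyclotomicCharacter.spec (AlgebraicClosure ℚ) (card_rootsOfUnity_eq_self p)
    (g : AlgebraicClosure ℚ ≃+* AlgebraicClosure ℚ) (SetLike.coe_mem hζ.toRootsOfUnity)
  have h2 : ((hζ.toRootsOfUnity : (AlgebraicClosure ℚ)ˣ) : AlgebraicClosure ℚ) = ζ := rfl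
  rw [h2] at h1
  exact h1

theorem apply_zeta_of_mem_ker {ζ : Qb} (hζ : IsPrimitiveRoot ζ p) {h : GQ}
    (hh : cycloChar p h = 1) : h ζ = ζ := by
  have : Fact (1 < p) := ⟨(Fact.out : p.Prime).one_lt⟩
  rw [cycloChar_spec hζ, hh, Units.val_one, ZMod.val_one, pow_one]

omit [Fact p.Prime] in
theorem pow_mod_eq {ζ : Qb} (hζ : IsPrimitiveRoot ζ p) (a : ℕ) : ζ ^ (a % p) = ζ ^ a := by
  conv_rhs => rw [← Nat.div_add_mod a p, pow_add, pow_mul, hζ.pow_eq_one, one_pow, one_mul]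

theorem pow_eq_pow_of_cast_eq {ζ : Qb} (hζ : IsPrimitiveRoot ζ p) {a c : ℕ}
    (h : (a : ZMod p) = (c : ZMod p)) : ζ ^ a = ζ ^ c := by
  have h1 : a % p = c % p := (ZMod.natCast_eq_natCast_iff' a c p).mp h
  rw [← pow_mod_eq hζ a, ← pow_mod_eq hζ c, h1]

theorem cast_eq_of_pow_eq_pow {ζ : Qb} (hζ : IsPrimitiveRoot ζ p) {a c : ℕ}
    (h : ζ ^ a = ζ ^ c) : (a : ZMod p) = (c : ZMod p) := by
  have hp : 0 < p := (Fact.out : p.Prime).pos
  rw [← pow_mod_eq hζ a, ← pow_mod_eq hζ c] at h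
  have h1 := hζ.pow_inj (Nat.mod_lt a hp) (Nat.mod_lt c hp) h
  exact (ZMod.natCast_eq_natCast_iff' a c p).mpr h1

/-- If `g ζ = ζ ^ n` then `χ(g) = n` in `ZMod p`. -/
theorem cycloChar_eq_of_apply {ζ : Qb} (hζ : IsPrimitiveRoot ζ p) {g : GQ} {n : ℕ}
    (hg : g ζ = ζ ^ n) : ((cycloChar p g : (ZMod p)ˣ) : ZMod p) = (n : ZMod p) := by
  have : NeZero p := ⟨(Fact.out : p.Prime).ne_zero⟩
  rw [cycloChar_spec hζ] at hg
  have := cast_eq_of_pow_eq_pow hζ hg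
  rwa [ZMod.natCast_zmod_val] at this

variable {b : GQ → ZMod p}

theorem b_inv_of_mem_ker
    (hb : ∀ σ τ : GQ, b (σ * τ) = ((cycloChar p τ : (ZMod p)ˣ) : ZMod p) * b σ + b τ)
    {σ : GQ} (hσ : cycloChar p σ = 1) : b σ⁻¹ = - b σ := by
  have h1 := hb σ σ⁻¹
  rw [mul_inv_cancel, cocycle_one hb, map_inv, hσ, inv_one, Units.val_one, one_mul] at h1
  exact eq_neg_of_add_eq_zero_right h1.symm

theorem b_pow_of_mem_ker
    (hb : ∀ σ τ : GQ, b (σ * τ) = ((cycloChar p τ : (ZMod p)ˣ) : ZMod p) * b σ + b τ)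
    {σ : GQ} (hσ : cycloChar p σ = 1) (n : ℕ) : b (σ ^ n) = n * b σ := by
  induction n with
  | zero => simp [cocycle_one hb]
  | succ n ih =>
    rw [pow_succ, cocycle_mul_of_mem_ker hb _ hσ, ih]
    push_cast
    ring

/-- The kernel `{χ = 1 ∧ b = 0}` as a subgroup. -/
def kerSubgroup (b : GQ → ZMod p)
    (hb : ∀ σ τ : GQ, b (σ * τ) = ((cycloChar p τ : (ZMod p)ˣ) : ZMod p) * b σ + b τ) :
    Subgroup GQ where
  carrier := {σ | cycloChar p σ = 1 ∧ b σ = 0}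
  mul_mem' := by
    rintro σ τ ⟨h1, h2⟩ ⟨h3, h4⟩
    refine ⟨by rw [map_mul, h1, h3, one_mul], ?_⟩
    rw [hb, h2, h4, mul_zero, add_zero]
  one_mem' := ⟨map_one _, cocycle_one hb⟩
  inv_mem' := by
    rintro σ ⟨h1, h2⟩
    refine ⟨by rw [map_inv, h1, inv_one], ?_⟩
    rw [b_inv_of_mem_ker hb h1, h2, neg_zero]

theorem mem_kerSubgroup
    (hb : ∀ σ τ : GQ, b (σ * τ) = ((cycloChar p τ : (ZMod p)ˣ) : ZMod p) * b σ + b τ) (σ : GQ) :
    σ ∈ kerSubgroup b hb ↔ cycloChar p σ = 1 ∧ b σ = 0 := Iff.rfl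

theorem conj_mem_kerSubgroup
    (hb : ∀ σ τ : GQ, b (σ * τ) = ((cycloChar p τ : (ZMod p)ˣ) : ZMod p) * b σ + b τ) (g : GQ)
    {k : GQ} (hk : k ∈ kerSubgroup b hb) : g * k * g⁻¹ ∈ kerSubgroup b hb := by
  obtain ⟨h1, h2⟩ := hk
  have hχ : cycloChar p (g * k * g⁻¹) = 1 := by
    rw [map_mul, map_mul, h1, mul_one, map_inv, mul_inv_cancel]
  refine ⟨hχ, ?_⟩
  have h3 := cocycle_conj hb g h1
  rw [h2] at h3
  exact (mul_eq_zero.mp h3).resolve_left (Units.ne_zero _)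

/-- Restriction of an automorphism to an intermediate field, as a monoid homomorphism. -/
noncomputable def resHom (L : IntermediateField ℚ (AlgebraicClosure ℚ)) (g : GQ) :
    L →* AlgebraicClosure ℚ where
  toFun x := g (x : AlgebraicClosure ℚ)
  map_one' := by simp
  map_mul' x y := by simp

/-- **Lagrange resolvent.** -/
theorem exists_resolvent
    (hb : ∀ σ τ : GQ, b (σ * τ) = ((cycloChar p τ : (ZMod p)ˣ) : ZMod p) * b σ + b τ)
    (hopen : IsOpen {σ : GQ | cycloChar p σ = 1 ∧ b σ = 0})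
    (hne : ∃ σ : GQ, cycloChar p σ = 1 ∧ b σ ≠ 0)
    {ζ : Qb} (hζ : IsPrimitiveRoot ζ p) :
    ∃ θ : Qb, θ ≠ 0 ∧ (∀ k : GQ, cycloChar p k = 1 → b k = 0 → k θ = θ) ∧
      ∀ h : GQ, cycloChar p h = 1 → h θ = ζ ^ (b h).val * θ := by
  have hp : p.Prime := Fact.out
  have : NeZero p := ⟨hp.ne_zero⟩
  have hgal : IsGalois ℚ (AlgebraicClosure ℚ) := isGalois_rat
  have hζ0 : ζ ≠ 0 := hζ.ne_zero hp.ne_zero
  -- normalise `s` with `b s = 1`
  obtain ⟨s₀, hs₀χ, hs₀b⟩ := hne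
  set s : GQ := s₀ ^ ((b s₀)⁻¹).val with hs
  have hsχ : cycloChar p s = 1 := by rw [hs, map_pow, hs₀χ, one_pow]
  have hsb : b s = 1 := by
    rw [hs, b_pow_of_mem_ker hb hs₀χ, ZMod.natCast_zmod_val, inv_mul_cancel₀ hs₀b]
  have hsζ : s ζ = ζ := apply_zeta_of_mem_ker hζ hsχ
  have hspow_χ : ∀ n : ℕ, cycloChar p (s ^ n) = 1 := fun n => by rw [map_pow, hsχ, one_pow]
  have hspow_b : ∀ n : ℕ, b (s ^ n) = n := fun n => by
    rw [b_pow_of_mem_ker hb hsχ, hsb, mul_one]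
  have hspow_ζ : ∀ n : ℕ, (s ^ n) ζ = ζ := fun n => apply_zeta_of_mem_ker hζ (hspow_χ n)
  -- the subgroup `H` and its fixed field
  set H : Subgroup GQ := kerSubgroup b hb with hH
  have hHopen : IsOpen (H : Set GQ) := hopen
  have hHclosed : IsClosed (H : Set GQ) := H.isClosed_of_isOpen hHopen
  set L : IntermediateField ℚ Qb := IntermediateField.fixedField H with hL
  have hfix : L.fixingSubgroup = H := InfiniteGalois.fixingSubgroup_fixedField ⟨H, hHclosed⟩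
  have hLfix : ∀ k ∈ H, ∀ x : L, k (x : Qb) = x := by
    intro k hk x
    exact x.2 ⟨k, hk⟩
  -- the restrictions of the powers of `s` to `L` are distinct
  have hinj : Function.Injective (fun i : Fin p => resHom L (s ^ (i : ℕ))) := by
    intro i j hij
    have h1 : (s ^ (j : ℕ))⁻¹ * s ^ (i : ℕ) ∈ L.fixingSubgroup := by
      intro x
      have h2 : (s ^ (i : ℕ)) (x : Qb) = (s ^ (j : ℕ)) (x : Qb) :=
        congrArg (fun f : L →* Qb => f x) hij
      show ((s ^ (j : ℕ))⁻¹ * s ^ (i : ℕ)) (x : Qb) = x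
      rw [AlgEquiv.mul_apply, h2]
      exact AlgEquiv.symm_apply_apply _ _
    rw [hfix] at h1
    have h3 : b ((s ^ (j : ℕ))⁻¹ * s ^ (i : ℕ)) = 0 := h1.2
    rw [cocycle_mul_of_mem_ker hb _ (hspow_χ _), b_inv_of_mem_ker hb (hspow_χ _), hspow_b,
      hspow_b] at h3
    have h4 : ((i : ℕ) : ZMod p) = ((j : ℕ) : ZMod p) := by
      linear_combination h3
    have h5 := (ZMod.natCast_eq_natCast_iff _ _ _).mp h4
    exact Fin.ext (Nat.ModEq.eq_of_lt_of_lt h5 i.2 j.2)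
  -- Dedekind independence gives a nonzero resolvent
  have hli : LinearIndependent Qb (fun i : Fin p => (resHom L (s ^ (i : ℕ)) : L → Qb)) :=
    (linearIndependent_monoidHom L Qb).comp _ hinj
  obtain ⟨x, hx⟩ : ∃ x : L, ∑ i : Fin p, (ζ⁻¹) ^ (i : ℕ) * (s ^ (i : ℕ)) (x : Qb) ≠ 0 := by
    by_contra hcon
    push Not at hcon
    have h0 : ∑ i : Fin p, ((ζ⁻¹) ^ (i : ℕ)) • (resHom L (s ^ (i : ℕ)) : L → Qb) = 0 := by
      funext x
      simp only [Finset.sum_apply, Pi.smul_apply, smul_eq_mul, Pi.zero_apply]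
      exact hcon x
    have h1 := (Fintype.linearIndependent_iff.mp hli) _ h0 ⟨0, hp.pos⟩
    simp at h1
  set f : ℕ → Qb := fun i => (ζ⁻¹) ^ i * (s ^ i) (x : Qb) with hf
  set θ : Qb := ∑ i ∈ Finset.range p, f i with hθ
  have hθ' : θ = ∑ i : Fin p, (ζ⁻¹) ^ (i : ℕ) * (s ^ (i : ℕ)) (x : Qb) := by
    rw [hθ, ← Fin.sum_univ_eq_sum_range]
  have hθ0 : θ ≠ 0 := by rw [hθ']; exact hx
  -- `θ` is fixed by `H`
  have hHθ : ∀ k ∈ H, k θ = θ := by
    intro k hk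
    rw [hθ, map_sum]
    refine Finset.sum_congr rfl fun i _ => ?_
    simp only [hf]
    have hkζ : k ζ = ζ := apply_zeta_of_mem_ker hζ hk.1
    rw [map_mul, map_pow, map_inv₀, hkζ]
    congr 1
    have hconj : (s ^ i)⁻¹ * k * ((s ^ i)⁻¹)⁻¹ ∈ H := conj_mem_kerSubgroup hb _ hk
    have h1 := hLfix _ hconj x
    have h2 : k ((s ^ i) (x : Qb)) = (s ^ i) (((s ^ i)⁻¹ * k * ((s ^ i)⁻¹)⁻¹) (x : Qb)) := by
      rw [inv_inv]
      simp only [AlgEquiv.mul_apply]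
      have : (s ^ i) ((s ^ i)⁻¹ (k ((s ^ i) (x : Qb)))) = k ((s ^ i) (x : Qb)) :=
        AlgEquiv.apply_symm_apply _ _
      exact this.symm
    rw [h2, h1]
  -- `s θ = ζ θ`
  have hfp : f p = f 0 := by
    simp only [hf, pow_zero, one_mul, inv_pow, hζ.pow_eq_one, inv_one]
    have hsp : s ^ p ∈ H := ⟨hspow_χ p, by rw [hspow_b, ZMod.natCast_self]⟩
    have := hLfix _ hsp x
    simpa using this
  have hsf : ∀ i : ℕ, s (f i) = ζ * f (i + 1) := by
    intro i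
    simp only [hf]
    rw [map_mul, map_pow, map_inv₀, hsζ, pow_succ, pow_succ', AlgEquiv.mul_apply]
    field_simp
  have hsθ : s θ = ζ * θ := by
    have h1 : ∑ i ∈ Finset.range p, f (i + 1) = θ := by
      have h2 := Finset.sum_range_succ f p
      have h3 := Finset.sum_range_succ' f p
      rw [h2, hfp] at h3
      exact add_right_cancel h3.symm
    rw [hθ, map_sum, Finset.sum_congr rfl fun i _ => hsf i, ← Finset.mul_sum, h1]
  have hspowθ : ∀ n : ℕ, (s ^ n) θ = ζ ^ n * θ := by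
    intro n
    induction n with
    | zero => simp
    | succ n ih =>
      rw [pow_succ', AlgEquiv.mul_apply, ih, map_mul, map_pow, hsζ, hsθ, pow_succ]
      ring
  refine ⟨θ, hθ0, fun k hk1 hk2 => hHθ k ⟨hk1, hk2⟩, fun h hh => ?_⟩
  set j : ℕ := (b h).val with hj
  have hk : (s ^ j)⁻¹ * h ∈ H := by
    refine ⟨by rw [map_mul, map_inv, hspow_χ, inv_one, one_mul, hh], ?_⟩
    rw [cocycle_mul_of_mem_ker hb _ hh, b_inv_of_mem_ker hb (hspow_χ _), hspow_b, hj,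
      ZMod.natCast_zmod_val, neg_add_cancel]
  have h1 : h θ = (s ^ j) (((s ^ j)⁻¹ * h) θ) := by
    rw [AlgEquiv.mul_apply]
    exact (AlgEquiv.apply_symm_apply (s ^ j) (h θ)).symm
  rw [h1, hHθ _ hk, hspowθ]

/-! ### Consequences of the resolvent property -/

variable {ζ θ : Qb}

/-- `θ ^ p` is fixed by `ker χ`. -/
theorem pow_fixed (hζ : IsPrimitiveRoot ζ p)
    (hθ : ∀ h : GQ, cycloChar p h = 1 → h θ = ζ ^ (b h).val * θ) {h : GQ}
    (hh : cycloChar p h = 1) : h (θ ^ p) = θ ^ p := by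
  rw [map_pow, hθ h hh, mul_pow, ← pow_mul, mul_comm _ p, pow_mul, hζ.pow_eq_one, one_pow, one_mul]

/-- `θ` is moved by every element of `ker χ` on which `b` does not vanish. -/
theorem apply_ne_of_b_ne_zero (hζ : IsPrimitiveRoot ζ p) (hθ0 : θ ≠ 0)
    (hθ : ∀ h : GQ, cycloChar p h = 1 → h θ = ζ ^ (b h).val * θ) {h : GQ}
    (hh : cycloChar p h = 1) (hbh : b h ≠ 0) : h θ ≠ θ := by
  have : NeZero p := ⟨(Fact.out : p.Prime).ne_zero⟩
  rw [hθ h hh]
  intro h1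
  have h2 : ζ ^ (b h).val = 1 := by
    have h3 : ζ ^ (b h).val * θ = 1 * θ := by rw [h1, one_mul]
    exact mul_right_cancel₀ hθ0 h3
  have h4 := (hζ.pow_eq_one_iff_dvd _).mp h2
  have h5 : (b h).val = 0 := Nat.eq_zero_of_dvd_of_lt h4 (ZMod.val_lt _)
  exact hbh ((ZMod.val_eq_zero _).mp h5)

/-- **Equivariance.** For `g` with `g ζ = ζ ^ n`, the quotient `g θ / θ ^ (n ^ 2)` is fixed by
`ker χ`. -/
theorem quot_fixed
    (hb : ∀ σ τ : GQ, b (σ * τ) = ((cycloChar p τ : (ZMod p)ˣ) : ZMod p) * b σ + b τ)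
    (hζ : IsPrimitiveRoot ζ p)
    (hθ : ∀ h : GQ, cycloChar p h = 1 → h θ = ζ ^ (b h).val * θ) (g : GQ) {n : ℕ}
    (hg : g ζ = ζ ^ n) {h : GQ} (hh : cycloChar p h = 1) :
    h (g θ / θ ^ (n ^ 2)) = g θ / θ ^ (n ^ 2) := by
  have hp : p.Prime := Fact.out
  have : NeZero p := ⟨hp.ne_zero⟩
  have hζ0 : ζ ≠ 0 := hζ.ne_zero hp.ne_zero
  have hχg : ((cycloChar p g : (ZMod p)ˣ) : ZMod p) = (n : ZMod p) := cycloChar_eq_of_apply hζ hg
  -- the conjugate `g⁻¹ h g`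
  have hconjχ : cycloChar p (g⁻¹ * h * g) = 1 := by
    rw [map_mul, map_mul, hh, mul_one, map_inv, inv_mul_cancel]
  have hconjb : b (g⁻¹ * h * g) = n * b h := by
    have h1 := cocycle_conj hb g⁻¹ hh
    rw [inv_inv] at h1
    have h2 : ((cycloChar p g⁻¹ : (ZMod p)ˣ) : ZMod p) * (n : ZMod p) = 1 := by
      rw [← hχg, ← Units.val_mul, ← map_mul, inv_mul_cancel, map_one, Units.val_one]
    calc b (g⁻¹ * h * g) = (((cycloChar p g⁻¹ : (ZMod p)ˣ) : ZMod p) * (n : ZMod p))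
          * b (g⁻¹ * h * g) := by rw [h2, one_mul]
      _ = n * (((cycloChar p g⁻¹ : (ZMod p)ˣ) : ZMod p) * b (g⁻¹ * h * g)) := by ring
      _ = n * b h := by rw [h1]
  have h1 : h (g θ) = ζ ^ (n ^ 2 * (b h).val) * g θ := by
    have h2 : h (g θ) = g ((g⁻¹ * h * g) θ) := by
      simp only [AlgEquiv.mul_apply]
      exact (AlgEquiv.apply_symm_apply g (h (g θ))).symm
    rw [h2, hθ _ hconjχ, map_mul, map_pow, hg, ← pow_mul]
    congr 1
    apply pow_eq_pow_of_cast_eq hζ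
    push_cast
    rw [ZMod.natCast_zmod_val, ZMod.natCast_zmod_val, hconjb]
    ring
  have h3 : h (θ ^ (n ^ 2)) = ζ ^ (n ^ 2 * (b h).val) * θ ^ (n ^ 2) := by
    rw [map_pow, hθ h hh, mul_pow, ← pow_mul, mul_comm (b h).val]
  rw [map_div₀, h1, h3]
  have hz : ζ ^ (n ^ 2 * (b h).val) ≠ 0 := pow_ne_zero _ hζ0
  rw [mul_div_mul_left _ _ hz]

end

/-- `σ` lies in `ker χ` iff it fixes a primitive `p`-th root of unity. -/
theorem cycloChar_eq_one_iff {p : ℕ} [Fact p.Prime] {ζ : Qb} (hζ : IsPrimitiveRoot ζ p) (σ : GQ) :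
    cycloChar p σ = 1 ↔ σ ζ = ζ := by
  constructor
  · exact fun h => apply_zeta_of_mem_ker hζ h
  · intro h
    have h1 : σ ζ = ζ ^ 1 := by rw [pow_one]; exact h
    have h2 := cycloChar_eq_of_apply hζ h1
    rw [Nat.cast_one] at h2
    exact Units.ext h2

/-- **(T-b)** The Kummer generator attached to the cocycle `b`: the fixed field `F` of
`{χ = 1 ∧ b = 0}`, a primitive root `ζ ∈ F` and an integral `θ ∈ F`, `θ ≠ 0`, with
`σ θ = ζ ^ b(σ) * θ` on `ker χ`, and the `ω²`-equivariance of `θ ^ p`. -/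
theorem exists_kummer_generator {p : ℕ} [Fact p.Prime] (b : GQ → ZMod p)
    (hb : ∀ σ τ : GQ, b (σ * τ) = ((cycloChar p τ : (ZMod p)ˣ) : ZMod p) * b σ + b τ)
    (hopen : IsOpen {σ : GQ | cycloChar p σ = 1 ∧ b σ = 0})
    (hne : ∃ σ : GQ, cycloChar p σ = 1 ∧ b σ ≠ 0) :
    ∃ (F : IntermediateField ℚ Qb) (_ : FiniteDimensional ℚ F) (_ : IsGalois ℚ F) (ζ θ : Qb),
      (∀ σ : GQ, σ ∈ F.fixingSubgroup ↔ (cycloChar p σ = 1 ∧ b σ = 0)) ∧
      IsPrimitiveRoot ζ p ∧ ζ ∈ F ∧ θ ∈ F ∧ θ ≠ 0 ∧ IsIntegral ℤ θ ∧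
      (∀ σ : GQ, cycloChar p σ = 1 → σ θ = ζ ^ (b σ).val * θ) ∧
      (∀ (g : GQ) (n : ℕ), g ζ = ζ ^ n → ∃ y : Qb,
        (∀ h : GQ, cycloChar p h = 1 → h y = y) ∧ g (θ ^ p) = (θ ^ p) ^ (n ^ 2) * y ^ p) := by
  have hp : p.Prime := Fact.out
  have : NeZero p := ⟨hp.ne_zero⟩
  have : NeZero (p : AlgebraicClosure ℚ) := ⟨Nat.cast_ne_zero.mpr hp.ne_zero⟩
  have hgal : IsGalois ℚ (AlgebraicClosure ℚ) := isGalois_rat
  obtain ⟨ζ, hζ⟩ := HasEnoughRootsOfUnity.exists_primitiveRoot (AlgebraicClosure ℚ) p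
  -- the fixed field
  set H : Subgroup GQ := kerSubgroup b hb with hH
  have hHnormal : H.Normal := ⟨fun k hk g => conj_mem_kerSubgroup hb g hk⟩
  have hHopen : IsOpen (H : Set GQ) := hopen
  have hE : ∃ E : IntermediateField ℚ (AlgebraicClosure ℚ),
      FiniteDimensional ℚ E ∧ E.fixingSubgroup ≤ H := by
    have h1 : (H : Set GQ) ∈ nhds (1 : GQ) := hHopen.mem_nhds H.one_mem
    obtain ⟨E, hE, hEH⟩ := (krullTopology_mem_nhds_one_iff ℚ (AlgebraicClosure ℚ) _).mp h1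
    exact ⟨E, hE, hEH⟩
  obtain ⟨F, hFfin, hFgal, hFH⟩ :=
    Fermat.Agent.S13.MinkGlue.exists_finite_galois_of_open_normal H hE
  have hmemF : ∀ x : Qb, (∀ k ∈ H, k x = x) → x ∈ F := by
    intro x hx
    have h1 := InfiniteGalois.fixedField_fixingSubgroup (k := ℚ) (K := Qb) F
    rw [← h1, IntermediateField.mem_fixedField_iff]
    intro k hk
    rw [hFH] at hk
    exact hx k hk
  -- the resolvent, scaled to be integral
  obtain ⟨θ₀, hθ₀0, hθ₀H, hθ₀⟩ := exists_resolvent hb hopen hne hζ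
  obtain ⟨N, hN0, hNint⟩ :=
    (Fermat.Agent.S13.ValSub.isAlgebraic_int θ₀).exists_integral_multiple
  have hNθ : N • θ₀ = (N : Qb) * θ₀ := by rw [zsmul_eq_mul]
  rw [hNθ] at hNint
  have hNQ : (N : Qb) ≠ 0 := Int.cast_ne_zero.mpr hN0
  set θ : Qb := (N : Qb) * θ₀ with hθdef
  have hθ0 : θ ≠ 0 := mul_ne_zero hNQ hθ₀0
  have hθ : ∀ σ : GQ, cycloChar p σ = 1 → σ θ = ζ ^ (b σ).val * θ := by
    intro σ hσ
    rw [hθdef, map_mul, map_intCast, hθ₀ σ hσ]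
    ring
  have hθH : ∀ k ∈ H, k θ = θ := by
    intro k hk
    rw [hθdef, map_mul, map_intCast, hθ₀H k hk.1 hk.2]
  refine ⟨F, hFfin, hFgal, ζ, θ, ?_, hζ, ?_, hmemF θ hθH, hθ0, hNint, hθ, ?_⟩
  · intro σ
    rw [hFH]
    exact Iff.rfl
  · exact hmemF ζ fun k hk => apply_zeta_of_mem_ker hζ hk.1
  · intro g n hg
    refine ⟨g θ / θ ^ (n ^ 2), fun h hh => quot_fixed hb hζ hθ g hg hh, ?_⟩
    have h1 : θ ^ (n ^ 2) ≠ 0 := pow_ne_zero _ hθ0
    rw [map_pow, div_pow, ← pow_mul, ← pow_mul, mul_comm p (n ^ 2)]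
    field_simp

end Fermat.Agent.S14Tr.Resolvent
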